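import Fermat.Agent.LT.LevelThree.TwistExclusion
import Fermat.Agent.OrdinaryCurve.Assembly
import Fermat.Agent.OrdinaryCurve.CurveB
import Fermat.Agent.OrdinaryCurve.CurveLattice
import Fermat.Agent.OrdinaryCurve.Bridge
import Fermat.Agent.S19

/-!
# Removal of the excess power of three at supersingular reduction

`levelThreeStep_final`: for a semistable curve with supersingular reduction at `3` and irreducible
mod `3` representation, residual modularity at a level cube-free away from `3` gives residual
modularity at such a level not divisible by `9` (`Top.LevelThreeStep`).
-/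

set_option autoImplicit false

noncomputable section

namespace Fermat.Agent.LT.LevelThree

/-- The ordinary part of the Tate modules at `3`. -/
theorem ordinaryTate_three [Fact (Nat.Prime 3)] (N : ℕ) [NeZero N] :
    OrdinaryCurve.OrdinaryTate 3 N :=
  OrdinaryCurve.ordinaryTate_of_inputs 3 N (OrdinaryCurve.hasFormalCurve 3 N)
    (OrdinaryCurve.hasLattices N 3) (OrdinaryCurve.nonempty_torsionBridge 3 N)

/-- The excess power of `3` in the level can be removed at supersingular reduction. -/
theorem levelThreeStep_final : Top.LevelThreeStep := by
  have : Fact (Nat.Prime 3) := ⟨Nat.prime_three⟩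
  refine levelThreeStep (fun N hN hN3 k => ?_)
    (ordinaryTwistExclusion fun N _ => ordinaryTate_three _)
  have : NeZero N := ⟨hN.ne'⟩
  exact Fermat.Agent.S19.result N 3 hN3 k

end Fermat.Agent.LT.LevelThree

end
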