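import Fermat.Agent.LT.LevelThree.FlatTwist
import Fermat.Agent.LT.GaloisData.AtThree
import Fermat.Agent.CurveTate.FlatTorsion
import Fermat.Agent.HeckeDatum.Reduction
import Fermat.Agent.LevelRaisingPrime.Main
import Fermat.Agent.LevelRaisingPrime.Frobenius

/-!
# The mod `3` representation of a supersingular curve, as needed for the level at `3`

Its cyclotomic determinant, flatness, the absence of stable lines under inertia at `3`, its span,
and the auxiliary primes.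
-/

set_option autoImplicit false

noncomputable section

open Matrix
open Fermat.Agent.TangentBound
open Fermat.Agent.FlatBound
open Fermat.Agent.GaloisBasics (Qbar GalQ)
open Fermat.Agent.FlatModels (HasFlatModel)
open Fermat.Agent.RepTheory (matRep matRep_apply)
open Fermat.Agent.LT.GaloisData

namespace Fermat.Agent.LT.LevelThree

local notation "F3" => ZMod 3

variable (W : WeierstrassCurve ℤ) (hΔ : W.Δ ≠ 0)

/-- `ρ₃` with values in matrices. -/
def rhoMat : GQ →* Mat2 F3 := (Units.coeHom _).comp (rhoThree W hΔ)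

/-- `rhoMat` is the matrix of `ρ₃`. -/
theorem rhoMat_apply (σ : GQ) :
    rhoMat W hΔ σ = (rhoThree W hΔ σ : Matrix (Fin 2) (Fin 2) F3) := rfl

/-- `ρ₃` is continuous. -/
theorem contRep_rhoMat : ContRep (rhoMat W hΔ) := by
  obtain ⟨L, hL, h⟩ := rhoThree_factors W hΔ
  exact ⟨L, hL, fun s hs => by
    rw [rhoMat_apply, h s ((IntermediateField.mem_fixingSubgroup_iff L s).mp hs), Units.val_one]⟩

/-- The determinant of `ρ₃` is cyclotomic. -/
theorem cycloDet_rhoMat : CycloDet 3 (rhoMat W hΔ) := by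
  intro s a ha
  rw [rhoMat_apply, coe_rhoThree, RepTheory.det_matRep]
  have h := (TWHyp.residualRep_detIsCyclotomic (p := 3) W hΔ).2 1 s a
    (fun μ hμ => ha μ (by rwa [pow_one] at hμ))
  rw [pow_one, ZMod.natCast_self, Ideal.mem_span_singleton, zero_dvd_iff, sub_eq_zero] at h
  exact h

/-- The determinant of `ρ₃` at Frobenius at `ℓ` is `ℓ`. -/
theorem det_rhoMat_frobenius {ℓ : ℕ} (hℓ : ℓ.Prime) (h3 : ℓ ≠ 3) {A : ValuationSubring Qbar}
    (hA : A.LiesOverPrime ℓ) {φ : GalQ} (hφ : A.IsFrobeniusAt φ ℓ) :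
    (rhoMat W hΔ φ).det = (ℓ : F3) :=
  cycloDet_rhoMat W hΔ φ ℓ fun μ hμ => by
    simpa using HeckeDatum.frobenius_pow_apply_eq A hA
      ((Nat.coprime_primes Nat.prime_three hℓ).mpr (Ne.symm h3)) three_ne_zero hφ 1 hμ

/-- `ρ₃` is flat at `3` at good reduction. -/
theorem hasFlatModel_rhoMat (hgood : ¬ (3 : ℤ) ∣ W.Δ) :
    HasFlatModel 3 (residualAct (rhoMat W hΔ)) := by
  set b := TWHyp.basisOf (TWHyp.residualRep W hΔ 3)
  refine (CurveTate.hasFlatModel_torsion (W := W) (p := 3) (N := 3) Nat.prime_three (by norm_num)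
    (by exact_mod_cast hgood) (by decide)).of_addEquiv b.equivFun.symm.toAddEquiv fun σ v => ?_
  show b.equivFun.symm _ = (TWHyp.residualRep W hΔ 3).ρ σ (b.equivFun.symm v)
  apply b.equivFun.injective
  rw [LinearEquiv.apply_symm_apply, residualAct, rhoMat_apply, coe_rhoThree, matRep_apply,
    Module.Basis.equivFun_apply]
  have := LinearMap.toMatrix_mulVec_repr b b ((TWHyp.residualRep W hΔ 3).ρ σ) (b.equivFun.symm v)
  rwa [← Module.Basis.equivFun_apply, LinearEquiv.apply_symm_apply] at this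

variable {W} {A : ValuationSubring Qbar}

/-- Inertia at a supersingular `3` stabilises no line. -/
theorem noStableLine_rhoMat (hs : Chain.SupersingularAtThree W) (hA : A.LiesOverPrime 3) :
    NoStableLine A (rhoMat W hΔ) := by
  intro v hv
  obtain ⟨σ, hσ, hns, h4, -⟩ := inertia_three_eq (hΔ := hΔ) hs hA
  refine ⟨σ, hσ, fun c hc => ?_⟩
  rw [rhoMat_apply] at hc
  set g := rhoThree W hΔ σ
  have key : ∀ a b c d : F3, a * d - b * c ≠ 0 → !![a, b; c, d] ^ 4 = -1 →
      a * d - b * c ≠ 1 → ∀ v : Fin 2 → F3, v ≠ 0 → ∀ t : F3, !![a, b; c, d] *ᵥ v ≠ t • v := by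
    intro a b c d hne h4 hd v hv t ht
    obtain ⟨e1, e2⟩ := order_eight_cases a b c d hne hd h4 v hv
    rw [ht, Matrix.mulVec_smul, ht, smul_smul] at e1 e2
    have hall : ∀ x : F3, x = 0 ∨ x * x = 1 := by decide
    rcases hall t with rfl | h0
    · rw [zero_smul] at ht
      have hinj := Matrix.mulVec_injective_of_isUnit (A := !![a, b; c, d])
        ((Matrix.isUnit_iff_isUnit_det _).2 (by rw [Matrix.det_fin_two_of]; exact hne.isUnit))
      exact hv (hinj (ht.trans (Matrix.mulVec_zero _).symm))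
    · exact e1 (by rw [h0, one_smul])
  have hn1 : (g : Matrix (Fin 2) (Fin 2) F3).det ≠ 1 := fun e =>
    hns ((det_eq_one_iff g).2 e)
  have h4' : (g : Matrix (Fin 2) (Fin 2) F3) ^ 4 = -1 := by
    rw [← Units.val_pow_eq_pow_val, h4, Units.val_neg, Units.val_one]
  revert hn1 h4' hc
  refine forall_gf3 (P := fun M => M *ᵥ v = c • v → M.det ≠ 1 → M ^ 4 = -1 → False) ?_ g
  intro a b c' d hne hc hd h4
  rw [Matrix.det_fin_two_of] at hd
  exact key a b c' d hne h4 hd v hv c hc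

theorem exists_shift_det_ne_zero : ∀ a b c d : F3,
    ∃ t : F3, (a - t) * (d - t) - b * c ≠ 0 := by decide

/-- The image spans the matrices. -/
theorem span_rhoMat (hW : W.IsSemistableModel) (hirr : W.ModRepIsIrreducible 3) :
    Submodule.span F3 (Set.range (rhoMat W hΔ)) = ⊤ := by
  have hmem : ∀ M : Matrix (Fin 2) (Fin 2) F3, M.det ≠ 0 →
      M ∈ Submodule.span F3 (Set.range (rhoMat W hΔ)) := fun M hM => by
    obtain ⟨σ, hσ⟩ := rhoThree_surjective W hΔ hW hirr
      (Matrix.GeneralLinearGroup.mkOfDetNeZero M hM)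
    exact Submodule.subset_span ⟨σ, by rw [rhoMat_apply, hσ]; rfl⟩
  refine eq_top_iff.2 fun M _ => ?_
  obtain ⟨t, ht⟩ := exists_shift_det_ne_zero (M 0 0) (M 0 1) (M 1 0) (M 1 1)
  rw [← sub_add_cancel M (t • (1 : Matrix (Fin 2) (Fin 2) F3))]
  refine add_mem (hmem _ ?_) (Submodule.smul_mem _ t (hmem 1 (by simp)))
  rw [Matrix.det_fin_two]
  simpa using ht

theorem powTrace_odd (e : F3) : ∀ b : ℕ, HeckeDatum.powTrace (0 : F3) e (2 * b + 1) = 0
  | 0 => by simp [HeckeDatum.powTrace]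
  | (b + 1) => by
    rw [show 2 * (b + 1) + 1 = (2 * b + 1) + 2 from by ring]
    simp [HeckeDatum.powTrace, powTrace_odd e b]

theorem trace_pow_fin_two {R : Type*} [CommRing R] (M : Matrix (Fin 2) (Fin 2) R) :
    ∀ a : ℕ, (M ^ a).trace = HeckeDatum.powTrace M.trace M.det a
  | 0 => by simp [HeckeDatum.powTrace]
  | 1 => by simp [HeckeDatum.powTrace]
  | (a + 2) => by
    have h : M ^ 2 = M.trace • M - M.det • (1 : Matrix (Fin 2) (Fin 2) R) := by
      ext i j
      fin_cases i <;> fin_cases j <;>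
        simp [pow_two, Matrix.mul_apply, Matrix.trace_fin_two, Matrix.det_fin_two] <;> ring
    have h2 : M ^ (a + 2) = M.trace • M ^ (a + 1) - M.det • M ^ a := by
      rw [pow_add, h, mul_sub, Matrix.mul_smul, Matrix.mul_smul, mul_one, ← pow_succ]
    rw [h2, Matrix.trace_sub, Matrix.trace_smul, Matrix.trace_smul,
      trace_pow_fin_two M (a + 1), trace_pow_fin_two M a]
    simp [HeckeDatum.powTrace, smul_eq_mul]

/-- A prime `ℓ ≡ 2 (mod 3)` outside `S` with `a_ℓ ≢ 0`. -/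
theorem exists_prime_two_mod (hW : W.IsSemistableModel) (hirr : W.ModRepIsIrreducible 3)
    (hΔ : W.Δ ≠ 0) (S : Finset ℕ)
    (hS : ∀ q : ℕ, q.Prime → q ∉ S → W.IsGoodPrimeFor q ∧ q ≠ 3) :
    ∃ ℓ : ℕ, ℓ.Prime ∧ ℓ ∉ S ∧ ℓ % 3 = 2 ∧ (W.apOfModel ℓ : F3) ≠ 0 := by
  obtain ⟨σ, hσ⟩ := rhoThree_surjective W hΔ hW hirr
    (Matrix.GeneralLinearGroup.mkOfDetNeZero !![(1 : F3), 1; 1, 0] (by decide))
  obtain ⟨L, hL, hcont⟩ := contRep_rhoMat W hΔ
  obtain ⟨ℓ, hℓ, hℓS, A, hA, φ, hφ, a, ha⟩ := HeckeDatum.frobeniusPowDense L hL σ S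
  obtain ⟨hgood, h3⟩ := hS ℓ hℓ hℓS
  have hg : rhoMat W hΔ φ ^ a = !![(1 : F3), 1; 1, 0] := by
    have h1 : rhoMat W hΔ ((φ ^ a)⁻¹ * σ) = 1 := hcont _ <|
      (IntermediateField.mem_fixingSubgroup_iff _ _).2 fun x hx => by
        rw [AlgEquiv.mul_apply, ha x hx]
        exact AlgEquiv.symm_apply_apply (φ ^ a) x
    rw [← map_pow, ← mul_one (rhoMat W hΔ (φ ^ a)), ← h1, ← map_mul, mul_inv_cancel_left,
      rhoMat_apply, hσ]
    rfl
  have hdet := congrArg Matrix.det hg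
  rw [Matrix.det_pow, det_rhoMat_frobenius W hΔ hℓ h3 hA hφ, Matrix.det_fin_two_of,
    show (1 : F3) * 0 - 1 * 1 = 2 from rfl] at hdet
  have h12 : ℓ % 3 = 1 ∨ ℓ % 3 = 2 := by
    have : ℓ % 3 ≠ 0 := fun h =>
      h3 ((Nat.prime_dvd_prime_iff_eq Nat.prime_three hℓ).1 (Nat.dvd_of_mod_eq_zero h)).symm
    omega
  have hcast : (ℓ : F3) = (ℓ % 3 : ℕ) := (ZMod.natCast_mod ℓ 3).symm
  rcases h12 with h | h
  · rw [hcast, h, Nat.cast_one, one_pow] at hdet
    exact absurd hdet (by decide)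
  refine ⟨ℓ, hℓ, hℓS, h, fun h0 => ?_⟩
  rw [hcast, h] at hdet
  obtain ⟨b, rfl⟩ : Odd a := by
    rcases Nat.even_or_odd a with e | o
    · obtain ⟨b, rfl⟩ := e
      rw [← two_mul, pow_mul, show ((2 : ℕ) : F3) ^ 2 = 1 from rfl, one_pow] at hdet
      exact absurd hdet (by decide)
    · exact o
  have htr := congrArg Matrix.trace hg
  rw [trace_pow_fin_two, rhoMat_apply, trace_rhoThree W hΔ hℓ hgood h3 hA hφ, h0,
    powTrace_odd, Matrix.trace_fin_two_of] at htr
  exact absurd htr (by decide)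

end Fermat.Agent.LT.LevelThree

end
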