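import Fermat.Agent.FlatBound.SmallPoints
import Fermat.Agent.FlatBound.Equivariance
import Fermat.Agent.FlatBound.Cocycle
import Mathlib.Tactic

/-!
# A representation and its quadratic twist are not both flat at `3`

For `rb : Γ_ℚ → GL₂(𝔽₃)` with cyclotomic determinant and without a line stable under inertia at `3`,
tame inertia acts on a flat model through `w ^ j`, `1 ≤ j ≤ 4`, `w` a primitive eighth root of
unity, so `j ∈ {1, 3}`; for the twist by the determinant this would need `-w ^ j` among them too.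
-/

set_option autoImplicit false

noncomputable section

open Fermat.Agent.TangentBound
open Fermat.Agent.GaloisBasics (Qbar GalQ)
open Fermat.Agent.FlatModels (HasFlatModel)
open IsLocalRing

namespace Fermat.Agent.LT.LevelThree

open Fermat.Agent.FlatBound

local notation "F3" => ZMod 3

/-- No line is stable under inertia. -/
def NoStableLine (A : ValuationSubring Qbar) (rb : GQ →* Mat2 F3) : Prop :=
  ∀ v : Fin 2 → F3, v ≠ 0 → ∃ σ ∈ A.inertiaSubgroupIn ℚ, ∀ c : F3, (rb σ).mulVec v ≠ c • v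

/-- The twist by the determinant. -/
def detTwist (rb : GQ →* Mat2 F3) : GQ →* Mat2 F3 where
  toFun σ := (rb σ).det • rb σ
  map_one' := by simp
  map_mul' σ τ := by rw [map_mul, Matrix.det_mul, Matrix.smul_mul, Matrix.mul_smul, smul_smul]

/-- The twist by the determinant. -/
theorem detTwist_apply (rb : GQ →* Mat2 F3) (σ : GQ) :
    detTwist rb σ = (rb σ).det • rb σ := rfl

/-- Nonzero elements of `𝔽₃` square to one. -/
theorem det_sq_eq_one {m : F3} (h : m ≠ 0) : m * m = 1 := by
  revert h; revert m; decide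

/-- The determinant of a representation does not vanish. -/
theorem det_ne_zero (rb : GQ →* Mat2 F3) (σ : GQ) : (rb σ).det ≠ 0 := fun h0 => by
  have h := congrArg Matrix.det (rb_mul_inv rb σ)
  rw [Matrix.det_mul, h0, zero_mul, Matrix.det_one] at h
  exact zero_ne_one h

/-- The twist does not change the determinant. -/
theorem det_detTwist (rb : GQ →* Mat2 F3) (σ : GQ) : (detTwist rb σ).det = (rb σ).det := by
  rw [detTwist_apply, Matrix.det_smul, Fintype.card_fin, pow_two,
    det_sq_eq_one (det_ne_zero rb σ), one_mul]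

theorem pow_twentyfour_aux : ∀ a b c d : F3, a * d - b * c ≠ 0 →
    (!![a, b; c, d] : Mat2 F3) ^ 24 = 1 := by decide +kernel

theorem pow_twentyfour (rb : GQ →* Mat2 F3) (σ : GQ) : rb σ ^ 24 = 1 := by
  have h := pow_twentyfour_aux _ _ _ _ (by
    have := det_ne_zero rb σ; rwa [Matrix.det_fin_two] at this)
  rwa [← Matrix.eta_fin_two (rb σ)] at h

theorem unipotent_of_three_pow : ∀ a b c d : F3, (!![a, b; c, d] : Mat2 F3) ^ 3 = 1 →
    a + d = 2 := by decide +kernel

theorem common_line : ∀ a b c d : F3, a + d = 2 → a * d - b * c = 1 →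
    ¬ (a = 1 ∧ b = 0 ∧ c = 0 ∧ d = 1) → ∀ x y : F3, a * x + b * y = x → c * x + d * y = y →
    ∀ a' b' c' d' : F3, a' + d' = 2 → a' * d' - b' * c' = 1 →
    a * a' + b * c' + (c * b' + d * d') = 2 → a' * x + b' * y = x ∧ c' * x + d' * y = y := by
  decide +kernel

theorem fixed_line {g h : Mat2 F3} (hg : g.trace = 2) (hg' : g.det = 1) (hg1 : g ≠ 1)
    (hh : h.trace = 2) (hh' : h.det = 1) (hgh : (g * h).trace = 2) {v : Fin 2 → F3}
    (hv : g.mulVec v = v) : h.mulVec v = v := by
  have e : ∀ (M : Mat2 F3) (i : Fin 2), M.mulVec v i = M i 0 * v 0 + M i 1 * v 1 := fun M i => by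
    simp [Matrix.mulVec, dotProduct, Fin.sum_univ_two]
  rw [Matrix.det_fin_two] at hg' hh'
  rw [Matrix.trace_fin_two] at hg hh hgh
  simp only [Matrix.mul_apply, Fin.sum_univ_two] at hgh
  have := common_line _ _ _ _ hg hg' (fun ⟨p, q, r, s⟩ => hg1 (by
    rw [Matrix.eta_fin_two g, p, q, r, s]; exact Matrix.one_fin_two.symm)) (v 0) (v 1)
    ((e g 0).symm.trans (congrFun hv 0)) ((e g 1).symm.trans (congrFun hv 1))
    _ _ _ _ hh hh' hgh
  funext i
  fin_cases i
  · exact (e h 0).trans this.1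
  · exact (e h 1).trans this.2

theorem fixed_collinear : ∀ a b c d : F3, ¬ (a = 1 ∧ b = 0 ∧ c = 0 ∧ d = 1) → ∀ x y : F3,
    a * x + b * y = x → c * x + d * y = y → ∀ x' y' : F3, a * x' + b * y' = x' →
    c * x' + d * y' = y' → x' * y = y' * x := by decide +kernel

/-- A matrix with both eigenvalues `1` fixes a nonzero vector. -/
theorem exists_fixed_vector : ∀ a b c d : F3, a + d = 2 → a * d - b * c = 1 →
    ∃ x y : F3, ¬ (x = 0 ∧ y = 0) ∧ a * x + b * y = x ∧ c * x + d * y = y := by decide +kernel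

variable {A : ValuationSubring Qbar} {rb : GQ →* Mat2 F3}

/-- Without a stable line `H` acts trivially. -/
theorem apply_H_eq_one (R : TameRoot A 3) (hE : R.E = 4) (hcont : ContRep rb)
    (hdet : CycloDet 3 rb) (hline : NoStableLine A rb) {σ : GQ} (hσ : σ ∈ R.H) : rb σ = 1 := by
  have hH : ∀ s ∈ R.H, (rb s).trace = 2 ∧ (rb s).det = 1 := by
    intro s hs
    obtain ⟨F, hF, hF1⟩ := hcont
    obtain ⟨m, hm⟩ := R.exists_pow_eq_one rb F hF1 (a := 1) (fun x _ => by
      rw [TameRoot.ee, hE]; exact pow_twentyfour rb x) hs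
    have hd : (rb s).det = 1 := by
      rw [det_eq_of_apply_zeta R hdet (n := 1) (by rw [pow_one, R.apply_zeta hs]), Nat.cast_one]
    have h3 : rb s ^ 3 = 1 := by
      have h := pow_gcd_eq_one.2 ⟨hm, pow_twentyfour rb s⟩
      have hd3 : Nat.gcd (3 ^ m) 24 ∣ 3 := by
        rw [show (24 : ℕ) = 3 * 8 from rfl, Nat.Coprime.gcd_mul_right_cancel_right]
        · exact Nat.gcd_dvd_right _ _
        · exact Nat.Coprime.pow_right m (by norm_num)
      obtain ⟨q, hq⟩ := hd3
      calc rb s ^ 3 = rb s ^ (Nat.gcd (3 ^ m) 24 * q) := congrArg (rb s ^ ·) hq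
        _ = 1 := by rw [pow_mul, h, one_pow]
    rw [Matrix.eta_fin_two (rb s)] at h3
    exact ⟨by rw [Matrix.trace_fin_two]; exact unipotent_of_three_pow _ _ _ _ h3, hd⟩
  by_contra hne
  obtain ⟨htr, hd⟩ := hH σ hσ
  have htr' := htr
  have hd' := hd
  rw [Matrix.trace_fin_two] at htr'
  rw [Matrix.det_fin_two] at hd'
  obtain ⟨x, y, hxy, hx, hy⟩ := exists_fixed_vector _ _ _ _ htr' hd'
  set v : Fin 2 → F3 := ![x, y] with hvdef
  have hv : (rb σ).mulVec v = v := by
    funext i
    fin_cases i <;> simp [Matrix.mulVec, dotProduct, Fin.sum_univ_two, hvdef, hx, hy]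
  have hv0 : v ≠ 0 := fun h => hxy ⟨congrFun h 0, congrFun h 1⟩
  have hfix : ∀ s ∈ R.H, (rb s).mulVec v = v := fun s hs =>
    fixed_line htr hd hne (hH s hs).1 (hH s hs).2 (by
      rw [← map_mul]; exact (hH _ (R.H.mul_mem hσ hs)).1) hv
  obtain ⟨g, hg, hgv⟩ := hline v hv0
  have hgD := LocalInertia.inertiaSubgroupIn_le_decompositionSubgroup (K := ℚ) hg
  have hgσ : (rb σ).mulVec ((rb g).mulVec v) = (rb g).mulVec v := by
    have h1 := hfix _ (R.conj_mem_of_decomposition hgD hσ)
    have h2 := congrArg (rb g).mulVec h1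
    rw [Matrix.mulVec_mulVec, ← map_mul, ← mul_assoc, ← mul_assoc, mul_inv_cancel, one_mul,
      map_mul, ← Matrix.mulVec_mulVec] at h2
    exact h2
  set w := (rb g).mulVec v
  have hline2 : w 0 * y = w 1 * x := fixed_collinear _ _ _ _ (fun ⟨p, q, r, s⟩ => hne (by
    rw [Matrix.eta_fin_two (rb σ), p, q, r, s]; exact Matrix.one_fin_two.symm)) x y hx hy
    (w 0) (w 1) (by simpa [Matrix.mulVec, dotProduct, Fin.sum_univ_two] using congrFun hgσ 0)
    (by simpa [Matrix.mulVec, dotProduct, Fin.sum_univ_two] using congrFun hgσ 1)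
  obtain ⟨k, hk, hk'⟩ : ∃ k : F3, w 0 = k * x ∧ w 1 = k * y := by
    by_cases hx0 : x = 0
    · have hy0 : y ≠ 0 := fun h => hxy ⟨hx0, h⟩
      refine ⟨w 1 / y, ?_, (div_mul_cancel₀ _ hy0).symm⟩
      rw [hx0, mul_zero] at hline2 ⊢
      exact (mul_eq_zero.1 hline2).resolve_right hy0
    · refine ⟨w 0 / x, (div_mul_cancel₀ _ hx0).symm, ?_⟩
      field_simp
      linear_combination -hline2
  refine hgv k ?_
  funext i
  fin_cases i
  · simpa [hvdef] using hk
  · simpa [hvdef] using hk'

/-- **Tame exponents of a flat representation.** -/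
theorem exists_exponent (R : TameRoot A 3) (hE : R.E = 4) (hcont : ContRep rb)
    (hdet : CycloDet 3 rb) (hline : NoStableLine A rb)
    (hflat : HasFlatModel 3 (residualAct rb)) {τ : GQ} (hτ : τ ∈ A.inertiaSubgroupIn ℚ) {w : A}
    (hw : τ (R.π : Qbar) = w * R.π) (hτ1 : rb τ ≠ 1) :
    ∃ j, 1 ≤ j ∧ j ≤ 4 ∧ (residue A w ^ j) ^ 2 -
      ((rb τ).trace.val : ResidueField A) * residue A w ^ j +
      ((rb τ).det.val : ResidueField A) = 0 := by
  obtain ⟨L⟩ := exists_model R.over hflat (A.inertiaSubgroupIn ℚ)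
  obtain ⟨v, hv⟩ : ∃ v, (rb τ).mulVec v ≠ v := by
    by_contra! h
    refine hτ1 (Matrix.toLin'.injective (LinearMap.ext fun v => ?_))
    simpa using h v
  set x := (rb τ).mulVec v - v
  have hx : x ≠ 0 := sub_ne_zero.2 hv
  have hx1 : L.size x < 1 := L.size_act_sub_lt_one hτ hτ v
  obtain ⟨z, ⟨i, hi⟩, hz, hrel⟩ := L.exists_tameChar_relation hx hx1
  -- the valuation of `z`
  have hzfld : (z : Qbar) ∈ R.fld := R.mem_fld.2 fun s hs => by
    rw [hi, ← L.coord_act (R.H_le hs)]
    simp [residualAct, apply_H_eq_one R hE hcont hdet hline hs]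
  obtain ⟨j, hj⟩ := R.exists_zpow hzfld z.ne_zero
  have hee : R.ee = 8 := by rw [TameRoot.ee, hE]
  have hj1 : 1 ≤ j := by
    by_contra! hlt
    have h := R.zpow_le_zpow (show j ≤ 0 by omega)
    rw [← hj, hz, zpow_zero] at h
    exact absurd hx1 (not_lt.2 h)
  have hp3 : (3 : ℕ) • x = 0 := by
    funext k
    rw [Pi.smul_apply, nsmul_eq_mul, show ((3 : ℕ) : F3) = 0 from rfl, zero_mul]
    rfl
  have hj4 : j ≤ 4 := by
    by_contra! hlt
    have h := L.valuation_natCast_le_size_pow R.prime hp3 hx hx1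
    rw [← hz, hj, ← R.vπ_pow_ee, hee, ← zpow_natCast, ← zpow_natCast, ← zpow_mul] at h
    have h' : R.vπ ^ (j * ((3 - 1 : ℕ) : ℤ)) < R.vπ ^ ((8 : ℕ) : ℤ) := by
      have := R.pow_lt_pow (i := (j * 2).toNat) (j := 8) (by omega)
      rw [← zpow_natCast, ← zpow_natCast, Int.toNat_of_nonneg (by omega)] at this
      exact_mod_cast this
    exact absurd h (not_le.2 h')
  obtain ⟨n, rfl⟩ := Int.eq_ofNat_of_zero_le (show 0 ≤ j by omega)
  refine ⟨n, by omega, by omega, ?_⟩
  have hchar : (LocalInertia.tameChar A z ⟨τ, hτ⟩ : ResidueField A) = residue A w ^ n := by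
    rw [LocalInertia.tameChar_congr z (R.π ^ n) (by
      rw [hj, Units.val_pow_eq_pow_val, map_pow, zpow_natCast]; rfl),
      LocalInertia.tameChar_pow_left, Units.val_pow_eq_pow_val, LocalInertia.coe_tameChar]
    refine congrArg (fun t => residue A t ^ n) (Subtype.ext ?_)
    show τ (R.π : Qbar) / R.π = w
    rw [hw, mul_div_cancel_right₀ _ R.π.ne_zero]
  set a : ℕ → ℤ := fun k => if k = 0 then ((rb τ).det.val : ℤ) else
    if k = 1 then -((rb τ).trace.val : ℤ) else 1 with ha
  have h := hrel ⟨τ, hτ⟩ hτ (Finset.range 3) a (by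
    simp only [Finset.sum_range_succ, Finset.sum_range_zero, zero_add, ha, residualAct]
    funext k
    rw [Pi.add_apply, Pi.add_apply, Pi.smul_apply, Pi.smul_apply, Pi.smul_apply]
    simp only [zsmul_eq_mul, Pi.zero_apply]
    push_cast
    simp only [pow_zero, pow_one, pow_two, map_one, map_mul, Matrix.one_mulVec]
    simp only [ZMod.natCast_zmod_val, Matrix.trace_fin_two, Matrix.det_fin_two]
    fin_cases k <;> simp [Matrix.mulVec, dotProduct, Fin.sum_univ_two, Matrix.mul_apply] <;> ring)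
  simp only [Finset.sum_range_succ, Finset.sum_range_zero, zero_add, ha, pow_zero, pow_one,
    if_true, one_ne_zero, if_false, OfNat.ofNat_ne_zero, OfNat.ofNat_ne_one, hchar] at h
  push_cast at h
  linear_combination h

/-- The combinatorics of the exponents. -/
theorem exponents_false {K : Type*} [Field K] [CharP K 3] {u t : K} (hu : u ^ 4 = -1)
    (ht : t = 1 ∨ t = -1) {i j : ℕ} (hi : 1 ≤ i ∧ i ≤ 4) (hj : 1 ≤ j ∧ j ≤ 4)
    (h₁ : (u ^ i) ^ 2 - t * u ^ i - 1 = 0) (h₂ : (u ^ j) ^ 2 + t * u ^ j - 1 = 0) : False := by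
  have h3 : (3 : K) = 0 := by exact_mod_cast CharP.cast_eq_zero K 3
  have h2 : (2 : K) ≠ 0 := fun e => one_ne_zero (α := K) (by linear_combination h3 - e)
  have ht2 : t * t = 1 := by rcases ht with rfl | rfl <;> ring
  have key : ∀ x t : K, t * t = 1 → x ^ 2 - t * x - 1 = 0 → x ^ 4 = -1 := fun x t ht hx => by
    linear_combination (x ^ 2 + t * x - 1) * hx + x ^ 2 * h3 + x ^ 2 * ht
  have hu0 : u ≠ 0 := fun e => one_ne_zero (α := K) (by
    have := hu; rw [e, zero_pow four_ne_zero] at this; linear_combination this)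
  have hodd : ∀ n : ℕ, (u ^ n) ^ 4 = -1 → Odd n := fun n hn => by
    rw [← pow_mul, mul_comm, pow_mul, hu] at hn
    rcases Nat.even_or_odd n with e | o
    · rw [e.neg_one_pow] at hn
      exact absurd (show (2 : K) = 0 by linear_combination hn) h2
    · exact o
  have hi' := hodd i (key _ t ht2 h₁)
  have hj' := hodd j (key _ (-t) (by rw [neg_mul_neg, ht2]) (by linear_combination h₂))
  have ht0 : t ≠ 0 := fun e => one_ne_zero (α := K) (by rw [← ht2, e, zero_mul])
  have same : ∀ y : K, y ≠ 0 → y ^ 2 - t * y - 1 = 0 → y ^ 2 + t * y - 1 = 0 → False :=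
    fun y hy a b => mul_ne_zero (mul_ne_zero h2 ht0) hy (by linear_combination b - a)
  have mixed : ∀ t : K, t * t = 1 → u ^ 2 - t * u - 1 = 0 →
      (u ^ 3) ^ 2 + t * u ^ 3 - 1 = 0 → False := fun t ht a b => by
    have hsum : t * u ^ 3 - t * u - 2 = 0 := by linear_combination a + b - u ^ 2 * hu
    have hut : u = t := by
      linear_combination t * hsum - (u ^ 3 - u) * ht - (u + t) * a - u * ht
    rw [hut] at a
    exact one_ne_zero (α := K) (by linear_combination -a)
  obtain ⟨a, rfl⟩ := hi'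
  obtain ⟨b, rfl⟩ := hj'
  have ha : a = 0 ∨ a = 1 := by omega
  have hb : b = 0 ∨ b = 1 := by omega
  rcases ha with rfl | rfl <;> rcases hb with rfl | rfl <;> norm_num at h₁ h₂
  · exact same u hu0 h₁ h₂
  · exact mixed t ht2 h₁ (by linear_combination h₂)
  · exact mixed (-t) (by rw [neg_mul_neg, ht2]) (by linear_combination h₂)
      (by linear_combination h₁)
  · exact same (u ^ 3) (pow_ne_zero 3 hu0) (by linear_combination h₁) (by linear_combination h₂)

/-- **Not both flat.** -/
theorem flat_twist_false (hA : A.LiesOverPrime 3) (hcont : ContRep rb) (hdet : CycloDet 3 rb)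
    (hline : NoStableLine A rb) (hflat : HasFlatModel 3 (residualAct rb))
    (hflat' : HasFlatModel 3 (residualAct (detTwist rb))) : False := by
  obtain ⟨R, hE⟩ := exists_tameRoot hA Nat.prime_three (E := 4) (by norm_num) (by norm_num)
  have hee : R.ee = 8 := by rw [TameRoot.ee, hE]
  obtain ⟨τ, hτ, w₀, hw₀, hτπ, hgen⟩ := R.exists_generator
  set w : A := ⟨w₀, mem_of_pow_eq_one R.ee_pos hw₀.pow_eq_one⟩ with hw
  have hw4 : (w : Qbar) ^ 4 = -1 := by
    have h := (hee ▸ hw₀).pow (show 0 < 8 by norm_num) (show 8 = 4 * 2 by norm_num)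
    exact h.eq_neg_one_of_two_right
  set u := residue A w
  have hu : u ^ 4 = -1 := by
    rw [← map_pow, show w ^ 4 = -1 from Subtype.ext (by simpa using hw4), map_neg, map_one]
  have : CharP (ResidueField A) 3 := GaloisBasics.residueField_charP hA Nat.prime_three
  obtain ⟨n, hn, hζ⟩ := R.exists_apply_zeta τ
  have hnu := R.natCast_exponent_inertia hτ hζ (u := w) hτπ
  rw [hE, hu] at hnu
  have h32 : ((2 : ℕ) : ResidueField A) = -1 := by
    have h3 : ((3 : ℕ) : ResidueField A) = 0 := CharP.cast_eq_zero _ 3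
    push_cast at h3 ⊢
    linear_combination h3
  have hn2 : n = 2 := by
    rw [← h32] at hnu
    exact CharP.natCast_injOn_Iio (ResidueField A) 3 hn (by simp) hnu
  subst hn2
  have hdτ : (rb τ).det = 2 := by rw [det_eq_of_apply_zeta R hdet hζ]; rfl
  have hτ1 : rb τ ≠ 1 := fun e => by rw [e, Matrix.det_one] at hdτ; exact absurd hdτ (by decide)
  have hI : ∀ σ ∈ A.inertiaSubgroupIn ℚ, ∃ m, rb σ = rb τ ^ m := fun σ hσ => by
    obtain ⟨m, -, h, hh, rfl⟩ := hgen σ hσ
    exact ⟨m, by rw [map_mul, map_pow, apply_H_eq_one R hE hcont hdet hline hh, mul_one]⟩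
  -- the trace of `τ` is nonzero
  have ht0 : (rb τ).trace ≠ 0 := fun h0 => by
    have key : ∀ a b c : F3, a * -a - b * c = 2 → ∃ x y : F3, ¬ (x = 0 ∧ y = 0) ∧
        a * x + b * y = x ∧ c * x + -a * y = y := by decide +kernel
    rw [Matrix.trace_fin_two] at h0
    have hd := hdτ
    rw [Matrix.det_fin_two, eq_neg_of_add_eq_zero_right h0] at hd
    obtain ⟨x, y, hxy, hx, hy⟩ := key _ _ _ hd
    set v : Fin 2 → F3 := ![x, y] with hv
    have hfix : (rb τ).mulVec v = v := by
      funext i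
      fin_cases i
      · simpa [Matrix.mulVec, dotProduct, Fin.sum_univ_two, hv] using hx
      · simpa [Matrix.mulVec, dotProduct, Fin.sum_univ_two, hv, eq_neg_of_add_eq_zero_right h0]
          using hy
    obtain ⟨σ, hσ, hσv⟩ := hline v fun h => hxy ⟨congrFun h 0, congrFun h 1⟩
    obtain ⟨m, hm⟩ := hI σ hσ
    refine hσv 1 ?_
    rw [one_smul, hm]
    clear hm
    induction m with
    | zero => simp
    | succ m ih => rw [pow_succ, ← Matrix.mulVec_mulVec, hfix, ih]
  have hline' : NoStableLine A (detTwist rb) := fun v hv => by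
    obtain ⟨σ, hσ, hσv⟩ := hline v hv
    refine ⟨σ, hσ, fun c hc => hσv ((rb σ).det * c) ?_⟩
    rw [detTwist_apply, Matrix.smul_mulVec] at hc
    rw [← smul_smul, ← hc, smul_smul, det_sq_eq_one (det_ne_zero rb σ), one_smul]
  have hdet' : CycloDet 3 (detTwist rb) := fun s a h => by rw [det_detTwist]; exact hdet s a h
  have hcont' : ContRep (detTwist rb) := by
    obtain ⟨F, hF, h1⟩ := hcont
    exact ⟨F, hF, fun s hs => by simp [detTwist_apply, h1 s hs]⟩
  have hτ1' : detTwist rb τ ≠ 1 := fun e => by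
    have := det_detTwist rb τ
    rw [e, Matrix.det_one, hdτ] at this
    exact absurd this (by decide)
  obtain ⟨i, hi1, hi4, hi⟩ := exists_exponent R hE hcont hdet hline hflat hτ (w := w) hτπ hτ1
  obtain ⟨j, hj1, hj4, hj⟩ := exists_exponent R hE hcont' hdet' hline' hflat' hτ (w := w) hτπ hτ1'
  rw [det_detTwist, hdτ, show (2 : F3).val = 2 from rfl, h32] at hj
  rw [hdτ, show (2 : F3).val = 2 from rfl, h32] at hi
  have htr : (detTwist rb τ).trace = 2 * (rb τ).trace := by
    rw [detTwist_apply, Matrix.trace_smul, hdτ, smul_eq_mul]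
  rw [htr] at hj
  have h1 : ((1 : ℕ) : ResidueField A) = 1 := Nat.cast_one
  obtain ht | ht : (rb τ).trace = 1 ∨ (rb τ).trace = 2 := by
    generalize (rb τ).trace = t at ht0
    revert ht0; revert t; decide
  · rw [ht, show (1 : F3).val = 1 from rfl, h1] at hi
    rw [ht, show ((2 : F3) * 1).val = 2 from rfl, h32] at hj
    exact exponents_false hu (Or.inl rfl) ⟨hi1, hi4⟩ ⟨hj1, hj4⟩ (by linear_combination hi)
      (by linear_combination hj)
  · rw [ht, show (2 : F3).val = 2 from rfl, h32] at hi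
    rw [ht, show ((2 : F3) * 2).val = 1 from rfl, h1] at hj
    exact exponents_false hu (Or.inr rfl) ⟨hi1, hi4⟩ ⟨hj1, hj4⟩ (by linear_combination hi)
      (by linear_combination hj)

end Fermat.Agent.LT.LevelThree
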