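import Fermat.Agent.KummerDivisor.FlatModules
import Fermat.Agent.FlatBound.Cocycle
import Fermat.Agent.HeckeEigen.Lift
import Fermat.Agent.CuspIntStr.Main
import Fermat.Agent.RepTheory.MatrixRep
import Fermat.Agent.LT.LevelThree.FlatTwist

/-!
# Flatness at `p` of the residual representation of a form of level prime to `p`

A representation over a finite field with full span whose traces at Frobenius elements come from
the Hecke algebra of `Γ₀(N)` has a flat model at `p`, given flat models of the torsion of `J₀(N)`.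
-/

set_option autoImplicit false

noncomputable section

open Matrix
open Fermat.Agent.TangentBound
open Fermat.Agent.FlatBound
open Fermat.Agent.FlatModels (HasFlatModel Qbar)

namespace Fermat.Agent.LT.LevelThree

variable {k : Type} [Field k]

/-- The span condition for the linear maps of a full matrix representation. -/
theorem span_toLin_eq_top {G : Type*} [Group G] (rb : G →* Mat2 k)
    (hspan : Submodule.span k (Set.range rb) = ⊤) :
    Submodule.span k (Set.range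
      ((Matrix.toLinAlgEquiv' : Mat2 k ≃ₐ[k] _).toMonoidHom.comp rb :
        G →* Module.End k (Fin 2 → k))) = ⊤ := by
  rw [eq_top_iff]
  intro f _
  have h := Submodule.mem_map_of_mem (f := (Matrix.toLinAlgEquiv' : Mat2 k ≃ₐ[k] _).toLinearMap)
    (show (Matrix.toLinAlgEquiv' : Mat2 k ≃ₐ[k] _).symm f ∈ Submodule.span k (Set.range rb) from
      hspan ▸ Submodule.mem_top)
  rw [Submodule.map_span, ← Set.range_comp] at h
  rwa [AlgEquiv.toLinearMap_apply, AlgEquiv.apply_symm_apply] at h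

/-- Powers of a matrix with given trace and determinant. -/
theorem trace_pow_eq_powTrace (M : Mat2 k) {t e : k} (ht : M.trace = t) (he : M.det = e) (a : ℕ) :
    LinearMap.trace k (Fin 2 → k) (Matrix.toLinAlgEquiv' M ^ a) =
      HeckeDatum.powTrace t e a := by
  refine HeckeDatum.trace_pow_of_charpoly (by simp) ?_ a
  rw [← ht, ← he, ← Matrix.charpoly_fin_two M]
  exact Matrix.charpoly_toLin' M

/-- **Flat residual representations from flat Hecke modules.** -/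
theorem hasFlatModel_residualAct_of_heckeModules [Finite k] {p N : ℕ} [NeZero N] (hp : p.Prime)
    (hpk : (p : k) = 0) {S : Finset ℕ} (hNS : ∀ q : ℕ, q.Prime → q ∣ N → q ∈ S)
    (hM : FlatModels.HasFlatHeckeModules N (↑S : Set ℕ) p)
    (θ : CuspForm.heckeAlgebra N 2 (↑S : Set ℕ) →+* k) (rb : GQ →* Mat2 k) (hcont : ContRep rb)
    (hspan : Submodule.span k (Set.range rb) = ⊤)
    (htr : ∀ (ℓ : ℕ) (hℓ : ℓ.Prime) (hℓN : ¬ ℓ ∣ N) (hℓS : ℓ ∉ (↑S : Set ℕ)), ℓ ≠ p →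
      ∀ A : ValuationSubring Qbar, A.LiesOverPrime ℓ → ∀ φ : GQ, A.IsFrobeniusAt φ ℓ →
        (rb φ).trace = θ (CuspForm.heckeAlgebra.T hℓ hℓN hℓS) ∧ (rb φ).det = (ℓ : k)) :
    HasFlatModel p (residualAct rb) := by
  obtain ⟨L₁, hL₁, hcont'⟩ := hcont
  obtain ⟨M, _, _, r, n, S₀, hpn, ⟨L₂, hL₂, hfac⟩, hflat, hES, hann⟩ := hM 1
  obtain ⟨ζ, hζ⟩ : ∃ ζ : Qbar, IsPrimitiveRoot ζ (p ^ n) := by
    have : NeZero (p ^ n) := ⟨pow_ne_zero _ hp.ne_zero⟩
    exact HasEnoughRootsOfUnity.exists_primitiveRoot Qbar (p ^ n)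
  have := hL₁
  have := hL₂
  have : FiniteDimensional ℚ (IntermediateField.adjoin ℚ ({ζ} : Set Qbar)) :=
    IntermediateField.adjoin.finiteDimensional
      (IsPrimitiveRoot.isIntegral hζ (pow_pos hp.pos n) |>.tower_top)
  set L : IntermediateField ℚ Qbar := L₁ ⊔ L₂ ⊔ IntermediateField.adjoin ℚ {ζ}
  have hLfin : FiniteDimensional ℚ L := inferInstance
  have hL1le : L₁ ≤ L := le_sup_of_le_left le_sup_left
  have hL2le : L₂ ≤ L := le_sup_of_le_left le_sup_right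
  have hζL : ζ ∈ L :=
    le_sup_right (a := L₁ ⊔ L₂) (IntermediateField.mem_adjoin_simple_self ℚ ζ)
  let ρ : GQ →* Module.End k (Fin 2 → k) :=
    (Matrix.toLinAlgEquiv' : Mat2 k ≃ₐ[k] _).toMonoidHom.comp rb
  -- data attached to one group element
  have key : ∀ g : GQ, ∃ (c : CuspForm.heckeAlgebra N 2 (↑S : Set ℕ)) (d : ℕ),
      LinearMap.trace k (Fin 2 → k) (ρ g) = θ c ∧
      g ζ = ζ ^ d ∧ d.Coprime p ∧ ∀ m : M, r g (r g m) - c • r g m + d • m = 0 := by
    intro g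
    obtain ⟨ℓ, hℓ, hℓnot, A, hA, φ, hφ, a, ha⟩ :=
      HeckeDatum.frobeniusPowDense L hLfin g (S₀ ∪ S ∪ {p})
    simp only [Finset.mem_union, Finset.mem_singleton, not_or] at hℓnot
    obtain ⟨⟨hℓS₀, hℓS⟩, hℓp⟩ := hℓnot
    have hℓN : ¬ ℓ ∣ N := fun hd => hℓS (hNS ℓ hℓ hd)
    have hℓS' : ℓ ∉ (↑S : Set ℕ) := by simpa using hℓS
    set Tl : CuspForm.heckeAlgebra N 2 (↑S : Set ℕ) := CuspForm.heckeAlgebra.T hℓ hℓN hℓS'
    refine ⟨HeckeDatum.powTrace Tl (ℓ : CuspForm.heckeAlgebra N 2 (↑S : Set ℕ)) a, ℓ ^ a, ?_, ?_,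
      ?_, ?_⟩
    · obtain ⟨ht, he⟩ := htr ℓ hℓ hℓN hℓS' hℓp A hA φ hφ
      have hrb : rb g = rb φ ^ a := by
        have h1 : rb ((φ ^ a)⁻¹ * g) = 1 := hcont' _ fun x => by
          show ((φ ^ a)⁻¹ * g) (x : Qbar) = x
          rw [AlgEquiv.mul_apply, ha _ (hL1le x.2)]
          exact AlgEquiv.symm_apply_apply (φ ^ a) (x : Qbar)
        rw [← map_pow, ← mul_one (rb (φ ^ a)), ← h1, ← map_mul, mul_inv_cancel_left]
      rw [HeckeDatum.map_powTrace, map_natCast, ← trace_pow_eq_powTrace (rb φ) ht he a, ← map_pow,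
        ← hrb]
      rfl
    · rw [ha ζ hζL]
      exact HeckeDatum.frobenius_pow_apply_eq A hA
        (((Nat.coprime_primes hp hℓ).mpr (Ne.symm hℓp)).pow_left n) (pow_ne_zero _ hp.ne_zero)
        hφ a hζ.pow_eq_one
    · exact ((Nat.coprime_primes hℓ hp).mpr hℓp).pow_left a
    · have hx : (r φ) ^ 2 - Tl • r φ
          + (ℓ : CuspForm.heckeAlgebra N 2 (↑S : Set ℕ)) • (1 : Module.End _ M) = 0 := by
        refine LinearMap.ext fun m => ?_
        rw [pow_two]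
        simpa [Nat.cast_smul_eq_nsmul] using hES ℓ hℓ hℓN hℓS' hℓS₀ A hA φ hφ m
      have hrg : r g = (r φ) ^ a := by
        have h1 : r ((φ ^ a)⁻¹ * g) = 1 := hfac _ fun x hx => by
          rw [AlgEquiv.mul_apply, ha x (hL2le hx)]; exact AlgEquiv.symm_apply_apply (φ ^ a) x
        rw [← map_pow, ← mul_one (r (φ ^ a)), ← h1, ← map_mul, mul_inv_cancel_left]
      intro m
      have h2 := LinearMap.congr_fun (HeckeDatum.pow_quadratic_algebra hx a) m
      rw [← hrg, pow_two] at h2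
      simp only [LinearMap.add_apply, LinearMap.sub_apply, LinearMap.smul_apply,
        Module.End.mul_apply, Module.End.one_apply, LinearMap.zero_apply] at h2
      rw [← Nat.cast_smul_eq_nsmul (CuspForm.heckeAlgebra N 2 (↑S : Set ℕ)), Nat.cast_pow]
      exact h2
  choose c d hc hd hdp hrel using key
  have hmod : ∀ a b : ℕ, ζ ^ a = ζ ^ b → ∀ m : M, a • m = b • m := by
    intro a b hab m
    have h2 : a % p ^ n = b % p ^ n := by
      rw [hζ.eq_orderOf]
      exact (hζ.isOfFinOrder (pow_ne_zero _ hp.ne_zero)).pow_eq_pow_iff_modEq.mp hab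
    rw [← Nat.div_add_mod a (p ^ n), ← Nat.div_add_mod b (p ^ n), h2, add_smul, add_smul,
      mul_comm, mul_smul, hpn, smul_zero, mul_comm, mul_smul, hpn, smul_zero]
  set W : Submodule k (Fin 2 → k) := (⊥ : Ideal k) • ⊤ with hW
  have hWbot : W = ⊥ := Submodule.bot_smul _
  have hWle : ∀ f : Module.End k (Fin 2 → k), W ≤ W.comap f := fun f => by simp [hWbot]
  have : Finite (k ⧸ (⊥ : Ideal k)) := Finite.of_surjective _ Ideal.Quotient.mk_surjective
  have hmodel : HasFlatModel p (fun σ => W.mapQ W (ρ σ) (hWle _)) := by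
    refine FlatModels.hasFlatModel_quotient_of_quadratic (c := c)
      (d := fun g => (d g : CuspForm.heckeAlgebra N 2 (↑S : Set ℕ))) hflat ?_ ?_ ?_ θ ρ
      (Pi.basisFun k (Fin 2)) (span_toLin_eq_top rb hspan) ⊥ ?_ ?_ _ fun σ v => rfl
    · intro g
      refine LinearMap.ext fun m => ?_
      have h1 : r g (r g⁻¹ m) = m := by
        rw [← Module.End.mul_apply, ← map_mul, mul_inv_cancel, map_one, Module.End.one_apply]
      have h2 := hrel g (r g⁻¹ m)
      rw [h1, sub_add_eq_add_sub, sub_eq_zero] at h2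
      simp only [LinearMap.add_apply, LinearMap.smul_apply, Module.End.one_apply,
        Nat.cast_smul_eq_nsmul]
      exact h2
    · intro g g' m
      simp only [Nat.cast_smul_eq_nsmul, smul_smul]
      refine hmod _ _ ?_ m
      rw [← hd, AlgEquiv.mul_apply, hd, map_pow, hd, ← pow_mul]
    · intro g m hm
      simp only [Nat.cast_smul_eq_nsmul] at hm
      have h1 := addOrderOf_dvd_of_nsmul_eq_zero hm
      have h2 := addOrderOf_dvd_of_nsmul_eq_zero (hpn m)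
      have h3 : addOrderOf m ∣ Nat.gcd (d g) (p ^ n) := Nat.dvd_gcd h1 h2
      rw [((hdp g).pow_right n : Nat.gcd (d g) (p ^ n) = 1), Nat.dvd_one] at h3
      exact AddMonoid.addOrderOf_eq_one_iff.mp h3
    · intro x hx
      obtain ⟨u, rfl⟩ := hann x hx
      simp [hpk]
    · intro g
      simp [hc g]
  refine hmodel.of_addEquiv (Submodule.quotEquivOfEqBot W hWbot).symm.toAddEquiv fun σ x => rfl

/-- The same, from flat models of the torsion of `J₀(N)`. -/
theorem hasFlatModel_residualAct_of_jacobianModels [Finite k] {p N : ℕ} [NeZero N] (hp : p.Prime)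
    (hpk : (p : k) = 0) {S : Finset ℕ} (hNS : ∀ q : ℕ, q.Prime → q ∣ N → q ∈ S)
    (hflat : FlatModels.JacobianHasFlatModels N p)
    (θ : CuspForm.heckeAlgebra N 2 (↑S : Set ℕ) →+* k) (rb : GQ →* Mat2 k) (hcont : ContRep rb)
    (hspan : Submodule.span k (Set.range rb) = ⊤)
    (htr : ∀ (ℓ : ℕ) (hℓ : ℓ.Prime) (hℓN : ¬ ℓ ∣ N) (hℓS : ℓ ∉ (↑S : Set ℕ)), ℓ ≠ p →
      ∀ A : ValuationSubring Qbar, A.LiesOverPrime ℓ → ∀ φ : GQ, A.IsFrobeniusAt φ ℓ →
        (rb φ).trace = θ (CuspForm.heckeAlgebra.T hℓ hℓN hℓS) ∧ (rb φ).det = (ℓ : k)) :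
    HasFlatModel p (residualAct rb) := by
  have : NeZero p := ⟨hp.ne_zero⟩
  obtain ⟨G, hG⟩ := KummerDivisor.exists_modules_algebraicRoots N p hp
  exact hasFlatModel_residualAct_of_heckeModules hp hpk hNS
    (KummerDivisor.hasFlatHeckeModules_of_divisorMaps (fun q hq hd => by simpa using hNS q hq hd)
      hp G (d := 6 * N) (Nat.mul_ne_zero (by norm_num) (NeZero.ne N))
      (KummerDivisor.hasDivisorMaps G hG) hflat) θ rb hcont hspan htr

/-- A normalised eigenform congruent to integers gives a homomorphism to `ZMod p`. -/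
theorem exists_heckeHom_of_congruent {p N : ℕ} [Fact p.Prime] [NeZero N] {S : Set ℕ}
    (hS : ∀ q : ℕ, q.Prime → q ∣ N → q ∈ S) {g : CuspForm (CongruenceSubgroup.Gamma0 N) 2}
    (hg : g.IsNormalizedEigenform) {Q : Ideal (integralClosure ℤ ℂ)} (hQ : Q.IsMaximal)
    (hpQ : (p : integralClosure ℤ ℂ) ∈ Q) {b : ℕ → ZMod p}
    (hcong : ∀ ℓ : ℕ, ℓ.Prime → ℓ ∉ S → ∀ m : ℤ, (m : ZMod p) = b ℓ →
      ∃ c : integralClosure ℤ ℂ, (c : ℂ) = ModularFormClass.qCoeff g ℓ ∧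
        c - (m : integralClosure ℤ ℂ) ∈ Q) :
    ∃ θ : CuspForm.heckeAlgebra N 2 S →+* ZMod p,
      ∀ (ℓ : ℕ) (hℓ : ℓ.Prime) (hℓN : ¬ ℓ ∣ N) (hℓS : ℓ ∉ S),
        θ (CuspForm.heckeAlgebra.T hℓ hℓN hℓS) = b ℓ := by
  let := Ideal.Quotient.field Q
  have hchar : CharP (integralClosure ℤ ℂ ⧸ Q) p :=
    (CharP.charP_iff_prime_eq_zero Fact.out).2 (by
      rw [← map_natCast (Ideal.Quotient.mk Q)]
      exact Ideal.Quotient.eq_zero_iff_mem.2 hpQ)
  let ι : ZMod p →+* integralClosure ℤ ℂ ⧸ Q := ZMod.castHom dvd_rfl _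
  let ψ : CuspForm.heckeAlgebra N 2 S →+* integralClosure ℤ ℂ ⧸ Q :=
    (Ideal.Quotient.mk Q).comp
      (HeckeEigen.eigenCharInt (CuspIntStr.hasIntegralStructure N 2) hg S)
  let χ : HeckeDatum.AwayPoly S →+* ZMod p :=
    MvPolynomial.eval₂Hom (Int.castRingHom _) fun ℓ => b (ℓ.1 : ℕ)
  have hT : ∀ (ℓ : ℕ) (hℓ : ℓ.Prime) (hℓN : ¬ ℓ ∣ N) (hℓS : ℓ ∉ S),
      ψ (CuspForm.heckeAlgebra.T hℓ hℓN hℓS) = ι (b ℓ) := by
    intro ℓ hℓ hℓN hℓS
    obtain ⟨m, hm⟩ := ZMod.intCast_surjective (b ℓ)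
    obtain ⟨c, hc, hcm⟩ := hcong ℓ hℓ hℓS m hm
    have e : HeckeEigen.eigenCharInt (CuspIntStr.hasIntegralStructure N 2) hg S
        (CuspForm.heckeAlgebra.T hℓ hℓN hℓS) = c :=
      Subtype.ext (by rw [HeckeEigen.coe_eigenCharInt, HeckeEigen.eigenChar_T, hc])
    rw [← hm, map_intCast, ← map_intCast (Ideal.Quotient.mk Q)]
    show Ideal.Quotient.mk Q _ = _
    rw [e]
    exact (Ideal.Quotient.mk_eq_mk_iff_sub_mem _ _).2 hcm
  have hcomm : ψ.comp (HeckeDatum.evalForms hS) = ι.comp χ := by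
    refine MvPolynomial.ringHom_ext (fun r => ?_) fun ℓ => ?_
    · simp
    · simp [HeckeDatum.evalForms, χ, hT]
  let θ : CuspForm.heckeAlgebra N 2 S →+* ZMod p :=
    RingHom.liftOfSurjective (HeckeDatum.evalForms hS) (HeckeDatum.evalForms_surjective hS)
      ⟨χ, fun P hP => by
        rw [RingHom.mem_ker] at hP ⊢
        refine ι.injective ?_
        rw [map_zero, ← RingHom.comp_apply, ← hcomm, RingHom.comp_apply, hP, map_zero]⟩
  refine ⟨θ, fun ℓ hℓ hℓN hℓS => ?_⟩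
  rw [show CuspForm.heckeAlgebra.T hℓ hℓN hℓS =
      HeckeDatum.evalForms hS (MvPolynomial.X ⟨⟨ℓ, hℓ⟩, hℓS⟩) by simp [HeckeDatum.evalForms],
    RingHom.liftOfRightInverse_comp_apply]
  simp [χ]

/-- The twist by the determinant has the same span. -/
theorem span_detTwist_eq_top {rb : GQ →* Mat2 (ZMod 3)}
    (hspan : Submodule.span (ZMod 3) (Set.range rb) = ⊤) :
    Submodule.span (ZMod 3) (Set.range (detTwist rb)) = ⊤ := by
  refine top_unique (hspan.ge.trans (Submodule.span_le.2 ?_))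
  rintro _ ⟨σ, rfl⟩
  have h := Submodule.smul_mem _ (rb σ).det
    (Submodule.subset_span (Set.mem_range_self (f := detTwist rb) σ))
  rwa [detTwist_apply, smul_smul, det_sq_eq_one (det_ne_zero rb σ), one_smul] at h

/-- **The twist exclusion input at level prime to `3`.** -/
theorem hasFlatModel_detTwist {N : ℕ} [NeZero N] {S : Finset ℕ}
    (hS : ∀ q : ℕ, q.Prime → q ∣ N → q ∈ S) (hflat : FlatModels.JacobianHasFlatModels N 3)
    {g : CuspForm (CongruenceSubgroup.Gamma0 N) 2}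
    (hg : g.IsNormalizedEigenform) {Q : Ideal (integralClosure ℤ ℂ)} (hQ : Q.IsMaximal)
    (h3Q : (3 : integralClosure ℤ ℂ) ∈ Q) {a : ℕ → ZMod 3}
    (hcong : ∀ ℓ : ℕ, ℓ.Prime → ℓ ∉ S → ∀ m : ℤ, (m : ZMod 3) = (ℓ : ZMod 3) * a ℓ →
      ∃ c : integralClosure ℤ ℂ, (c : ℂ) = ModularFormClass.qCoeff g ℓ ∧
        c - (m : integralClosure ℤ ℂ) ∈ Q)
    {rb : GQ →* Mat2 (ZMod 3)} (hcont : ContRep rb)
    (hspan : Submodule.span (ZMod 3) (Set.range rb) = ⊤)
    (htr : ∀ ℓ : ℕ, ℓ.Prime → ℓ ∉ S → ℓ ≠ 3 →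
      ∀ A : ValuationSubring Qbar, A.LiesOverPrime ℓ → ∀ φ : GQ, A.IsFrobeniusAt φ ℓ →
        (rb φ).trace = a ℓ ∧ (rb φ).det = (ℓ : ZMod 3)) :
    HasFlatModel 3 (residualAct (detTwist rb)) := by
  have : Fact (Nat.Prime 3) := ⟨Nat.prime_three⟩
  obtain ⟨θ, hθ⟩ := exists_heckeHom_of_congruent (S := (↑S : Set ℕ))
    (fun q hq hd => by simpa using hS q hq hd) hg hQ (by exact_mod_cast h3Q)
    (b := fun ℓ => (ℓ : ZMod 3) * a ℓ) (fun ℓ hℓ hℓS => hcong ℓ hℓ (by simpa using hℓS))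
  obtain ⟨F, hF, hF1⟩ := hcont
  refine hasFlatModel_residualAct_of_jacobianModels Nat.prime_three (ZMod.natCast_self 3) hS hflat
    θ _ ⟨F, hF, fun s hs => by simp [detTwist_apply, hF1 s hs]⟩ (span_detTwist_eq_top hspan)
    fun ℓ hℓ hℓN hℓS hℓ3 A hA φ hφ => ?_
  obtain ⟨ht, hd⟩ := htr ℓ hℓ (by simpa using hℓS) hℓ3 A hA φ hφ
  refine ⟨?_, by rw [det_detTwist, hd]⟩
  rw [hθ ℓ hℓ hℓN hℓS, detTwist_apply, Matrix.trace_smul, hd, ht, smul_eq_mul]

end Fermat.Agent.LT.LevelThree
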