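import Fermat.Agent.LT.LevelThree.Top
import Fermat.Agent.LT.LevelThree.Data
import Fermat.Agent.LT.LevelThree.FlatResidual
import Fermat.Agent.LT.Top.Assembly
import Fermat.Agent.Newforms.Main
import Fermat.Agent.GaloisBasics.Place

/-!
# The excess power of three at supersingular reduction

The residual system descends to `3 N` up to a power of the cyclotomic character. An odd power gives
either an ordinary system at `3 N` or flatness of the twist of `ρ₃` by its determinant.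
-/

set_option autoImplicit false

noncomputable section

open CongruenceSubgroup
open Fermat.Agent.FlatBound
open Fermat.Agent.GaloisBasics (Qbar GalQ)

namespace Fermat.Agent.LT.LevelThree

/-- The twist of a supersingular `ρ₃` is not the residual system of an eigenform of level `3 N`
whose coefficient at `3` has square one. -/
def OrdinaryTwistExclusion : Prop :=
  ∀ W : WeierstrassCurve ℤ, W.Δ ≠ 0 → W.IsSemistableModel → W.ModRepIsIrreducible 3 →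
    Chain.SupersingularAtThree W →
    ∀ N : ℕ, 0 < N → ¬ 3 ∣ N →
    ∀ g : CuspForm (Gamma0 (3 * N)) 2, g.IsNormalizedEigenform →
      ModularFormClass.qCoeff g 3 ^ 2 = 1 →
    ∀ Q : Ideal (integralClosure ℤ ℂ), Q.IsMaximal → (3 : integralClosure ℤ ℂ) ∈ Q →
    ∀ S : Finset ℕ, (∀ q : ℕ, q.Prime → q ∣ 3 * N → q ∈ S) →
      (∀ q : ℕ, q.Prime → q ∉ S → W.IsGoodPrimeFor q) →
      (∀ ℓ : ℕ, ℓ.Prime → ℓ ∉ S → ∀ m : ℤ,
        (m : ZMod 3) = (ℓ : ZMod 3) * (W.apOfModel ℓ : ZMod 3) →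
          ∃ c : integralClosure ℤ ℂ, (c : ℂ) = ModularFormClass.qCoeff g ℓ ∧
            c - (m : integralClosure ℤ ℂ) ∈ Q) → False

theorem natCast_pow_parity {ℓ : ℕ} (hℓ : ℓ.Prime) (h3 : ℓ ≠ 3) (i : ℕ) :
    (ℓ : ZMod 3) ^ i = if Even i then 1 else (ℓ : ZMod 3) := by
  have hne : (ℓ : ZMod 3) ≠ 0 := fun e =>
    h3 ((Nat.prime_dvd_prime_iff_eq Nat.prime_three hℓ).1
      ((ZMod.natCast_eq_zero_iff ℓ 3).1 e)).symm
  have h2 : (ℓ : ZMod 3) ^ 2 = 1 := by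
    rw [pow_two]
    exact det_sq_eq_one hne
  obtain ⟨k, rfl⟩ | ⟨k, rfl⟩ := Nat.even_or_odd i
  · rw [if_pos ⟨k, rfl⟩, ← two_mul, pow_mul, h2, one_pow]
  · rw [if_neg (Nat.not_even_iff_odd.2 ⟨k, rfl⟩), pow_succ, pow_mul, h2, one_pow, one_mul]

/-- **`LevelThreeStep`** from flat models of Jacobians and the exclusion of ordinary twists. -/
theorem levelThreeStep
    (hJ : ∀ N : ℕ, 0 < N → ¬ 3 ∣ N → FlatModels.JacobianHasFlatModels N 3)
    (hord : OrdinaryTwistExclusion) : Top.LevelThreeStep := by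
  intro W hΔ hW hirr hs M hM hmod hcube
  by_cases h9 : 3 ^ 2 ∣ M
  swap
  · exact ⟨M, hM, hmod, h9, hcube⟩
  have : Fact (Nat.Prime 3) := ⟨Nat.prime_three⟩
  obtain ⟨e, N, hN3, hMeq⟩ := Nat.exists_eq_pow_mul_and_not_dvd hM.ne' 3 (by norm_num)
  obtain ⟨j, rfl⟩ : ∃ j, e = j + 1 := by
    rcases e with _ | j
    · rw [pow_zero, one_mul] at hMeq
      exact absurd ((dvd_pow_self 3 two_ne_zero).trans (hMeq ▸ h9)) hN3
    · exact ⟨j, rfl⟩
  have hN0 : 0 < N := Nat.pos_of_ne_zero fun h => by simp [h] at hN3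
  have hMj : M = 3 ^ j * (3 * N) := by rw [hMeq, pow_succ, mul_assoc]
  have : NeZero N := ⟨hN0.ne'⟩
  have : NeZero M := ⟨hM.ne'⟩
  have hdvd : 3 * N ∣ M := ⟨3 ^ j, by rw [hMj, mul_comm]⟩
  have h3M : 3 ∣ M := (dvd_mul_right 3 N).trans hdvd
  classical
  set S : Finset ℕ := (3 * N).primeFactors ∪ W.Δ.natAbs.primeFactors with hSdef
  have hS : ∀ q : ℕ, q.Prime → q ∣ 3 * N → q ∈ (↑S : Set ℕ) := fun q hq hd => by
    rw [hSdef, Finset.coe_union]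
    exact Or.inl (Nat.mem_primeFactors.2 ⟨hq, hd, (Nat.mul_pos three_pos hN0).ne'⟩)
  have hgood : ∀ q : ℕ, q.Prime → q ∉ S → W.IsGoodPrimeFor q ∧ q ≠ 3 := fun q hq hqS => by
    refine ⟨fun hd => hqS (Finset.mem_union_right _ (Nat.mem_primeFactors.2
      ⟨hq, Int.natCast_dvd.1 hd, Int.natAbs_ne_zero.2 hΔ⟩)), fun e => hqS ?_⟩
    exact Finset.mem_union_left _ (Nat.mem_primeFactors.2
      ⟨hq, e ▸ dvd_mul_right 3 N, (Nat.mul_pos three_pos hN0).ne'⟩)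
  have hSM : ∀ q : ℕ, q.Prime → q ∣ M → q ∈ (↑S : Set ℕ) := fun q hq hd => by
    rw [hMj] at hd
    refine hS q hq ((hq.dvd_mul.1 hd).elim (fun h => (hq.dvd_of_dvd_pow h).mul_right N) id)
  -- auxiliary primes
  obtain ⟨ℓ₀, hℓ₀, hℓ₀d, hℓ₀g, hℓ₀one, hℓ₀a⟩ :=
    LevelRaisingPrime.exists_prime_one_mod_trace_ne_two W 3 hΔ (by norm_num)
      (LevelRaisingPrime.frobeniusTraceDet W Nat.prime_three) hirr M hM
  have hℓ₀S : ℓ₀ ∉ S := fun h => by
    rcases Finset.mem_union.1 h with h | h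
    · exact hℓ₀d (((Nat.mem_primeFactors.1 h).2.1.trans hdvd).mul_right 3)
    · exact hℓ₀g (Int.natCast_dvd.2 (Nat.mem_primeFactors.1 h).2.1)
  obtain ⟨ℓ₁, hℓ₁, hℓ₁S, hℓ₁2, hℓ₁a⟩ := exists_prime_two_mod hW hirr hΔ S hgood
  have : Fact ℓ₀.Prime := ⟨hℓ₀⟩
  have : Fact ℓ₁.Prime := ⟨hℓ₁⟩
  have hone : (ℓ₀ : ZMod M) = 1 := by
    have e := congrArg (ZMod.castHom (dvd_mul_left M 3) (ZMod M)) hℓ₀one
    rwa [map_natCast, map_one] at e
  have hone' : (ℓ₀ : ZMod (3 * N)) = 1 := by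
    have e := congrArg (ZMod.castHom hdvd (ZMod (3 * N))) hone
    rwa [map_natCast, map_one] at e
  have hone3 : (ℓ₀ : ZMod 3) = 1 := by
    have e := congrArg (ZMod.castHom h3M (ZMod 3)) hone
    rwa [map_natCast, map_one] at e
  -- descent
  obtain ⟨φ, hφ0, hφp, hφe⟩ := exists_eigenHom h3M hmod (↑S : Set ℕ) hSM
    fun q hq hqS => hgood q hq (by simpa using hqS)
  obtain ⟨i, ψ, hψ0, -, hψe⟩ := exists_descend hS (ℓ₀ := ℓ₀) (by simpa using hℓ₀S) j M h3M _ hMj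
    hone hℓ₀a φ hφ0 hφp hφe
  obtain ⟨g, Q, hg, hQ, h3Q, hcong⟩ := exists_eigenform_of_eigenHom (three_dvd_mul N) hS
    (b := fun ℓ => (ℓ : ZMod 3) ^ i * (W.apOfModel ℓ : ZMod 3))
    (ℓ₀ := ℓ₀) (ℓ₁ := ℓ₁) (by simpa using hℓ₀S) hone' (by simpa [hone3] using hℓ₀a)
    (by simpa using hℓ₁S) hℓ₁2 (mul_ne_zero (pow_ne_zero _ (fun e => by
      have := (ZMod.natCast_eq_zero_iff ℓ₁ 3).1 e
      omega)) hℓ₁a) hψ0 hψe
  by_cases hi : Even i
  · refine ⟨3 * N, Nat.mul_pos three_pos hN0, ⟨g, Q, hg, hQ, by exact_mod_cast h3Q,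
      fun ℓ hℓ hℓg hℓN hℓ3 => ?_⟩, ?_, fun q hq hq3 hd => hcube q hq hq3 (hd.trans hdvd)⟩
    · have hℓS : ℓ ∉ S := fun h => by
        rcases Finset.mem_union.1 h with h | h
        · exact hℓN (Nat.mem_primeFactors.1 h).2.1
        · exact hℓg (Int.natCast_dvd.2 (Nat.mem_primeFactors.1 h).2.1)
      exact hcong ℓ hℓ (by simpa using hℓS) _ (by
        rw [natCast_pow_parity hℓ hℓ3, if_pos hi, one_mul])
    · rw [pow_two]
      exact fun h => hN3 (Nat.dvd_of_mul_dvd_mul_left three_pos h)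
  refine absurd ?_ not_false
  have hcong' : ∀ ℓ : ℕ, ℓ.Prime → ℓ ∉ S → ∀ m : ℤ,
      (m : ZMod 3) = (ℓ : ZMod 3) * (W.apOfModel ℓ : ZMod 3) →
        ∃ c : integralClosure ℤ ℂ, (c : ℂ) = ModularFormClass.qCoeff g ℓ ∧
          c - (m : integralClosure ℤ ℂ) ∈ Q := fun ℓ hℓ hℓS m hm =>
    hcong ℓ hℓ (by simpa using hℓS) m (by
      rw [hm, natCast_pow_parity hℓ (hgood ℓ hℓ hℓS).2, if_neg hi])
  rcases Newforms.qCoeff_sq_eq_one_or_occursAt Nat.prime_three hN3 g hg with h1 | ⟨g', hg', heq⟩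
  · exact hord W hΔ hW hirr hs N hN0 hN3 g hg h1 Q hQ h3Q S
      (fun q hq hd => by simpa using hS q hq hd) (fun q hq hqS => (hgood q hq hqS).1) hcong'
  obtain ⟨A, hA⟩ := GaloisBasics.exists_liesOverPrime Nat.prime_three
  refine flat_twist_false hA (contRep_rhoMat W hΔ) (cycloDet_rhoMat W hΔ)
    (noStableLine_rhoMat hΔ hs hA) (hasFlatModel_rhoMat W hΔ hs.1) ?_
  refine hasFlatModel_detTwist (S := S) (a := fun ℓ => (W.apOfModel ℓ : ZMod 3))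
    (fun q hq hd => by simpa using hS q hq (hd.mul_left 3)) (hJ N hN0 hN3) hg' hQ h3Q
    (fun ℓ hℓ hℓS m hm => ?_) (contRep_rhoMat W hΔ) (span_rhoMat hΔ hW hirr)
    fun ℓ hℓ hℓS hℓ3 B hB φ' hφ' => ⟨GaloisData.trace_rhoThree W hΔ hℓ (hgood ℓ hℓ hℓS).1 hℓ3
      hB hφ', det_rhoMat_frobenius W hΔ hℓ hℓ3 hB hφ'⟩
  obtain ⟨c, hc, hcm⟩ := hcong' ℓ hℓ hℓS m hm
  exact ⟨c, hc.trans (heq ℓ hℓ fun hd => hℓS (by simpa using hS ℓ hℓ hd)).symm, hcm⟩

end Fermat.Agent.LT.LevelThree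

end
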