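import Fermat.Agent.LT.LevelThree.Levels
import Fermat.Agent.HeckeCohom.Boundary

/-!
# One step down in the `3`-power of the level

A nonzero parabolic eigen homomorphism `φ : levelGroup (3 M) → 𝔽₃` with system `a` gives one of
`levelGroup M` with system `ℓ ^ i a_ℓ`, provided some `ℓ₀ ≡ 1 (mod M)` has `a_ℓ₀ ≠ 2`.
-/

set_option autoImplicit false

noncomputable section

open Matrix
open scoped MatrixGroups

namespace Fermat.Agent.LT.LevelThree

open Fermat.Agent.GroupH1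
open Fermat.Agent.HeckeLattice (toGL CosetSystem)
open ModularCurve.Period (IsParabolicHom)

variable {M : ℕ} [NeZero M] (h : 3 ∣ M)

/-- The Hecke operator on `Hom(levelGroup M, 𝔽₃)`. -/
abbrev heckeHom (M : ℕ) (h : 3 ∣ M) (ℓ : ℕ) [Fact ℓ.Prime] :
    (Additive (levelGroup M h) →+ ZMod 3) →+ (Additive (levelGroup M h) →+ ZMod 3) :=
  (heckeSystem M (oneModThree M h) ℓ).transfer

/-- An eigen system away from `S`. -/
def IsEigenHom (M : ℕ) (h : 3 ∣ M) (S : Set ℕ) (a : ℕ → ZMod 3)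
    (φ : Additive (levelGroup M h) →+ ZMod 3) : Prop :=
  ∀ (ℓ : ℕ) [Fact ℓ.Prime], ℓ ∉ S → heckeHom M h ℓ φ = a ℓ • φ

omit [NeZero M] in
theorem lowM_conj_mem (m : ℤ) (γ : levelGroup (3 * M) (three_dvd_mul M)) [NeZero M] :
    ((lowM h m * ⟨γ, levelGroup_le h γ.2⟩ * lowM h (-m) : levelGroup M h) : SL(2, ℤ)) ∈
      levelGroup (3 * M) (three_dvd_mul M) := by
  rw [← kap_eq_zero_iff, ofMul_mul, ofMul_mul, map_add, map_add, kap_lowM, kap_lowM,
    (kap_eq_zero_iff h ⟨γ, levelGroup_le h γ.2⟩).2 γ.2, add_zero, Int.cast_neg, add_neg_cancel]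

/-- Conjugation by `lowM m`. -/
def lowConj (m : ℤ) :
    levelGroup (3 * M) (three_dvd_mul M) →* levelGroup (3 * M) (three_dvd_mul M) where
  toFun γ := ⟨_, lowM_conj_mem h m γ⟩
  map_one' := Subtype.ext (by simp [lowM_neg])
  map_mul' γ δ := Subtype.ext (by simp [lowM_neg, mul_assoc])

/-- The deck transformation. -/
def tauOp (m : ℤ) : (Additive (levelGroup (3 * M) (three_dvd_mul M)) →+ ZMod 3) →+
    (Additive (levelGroup (3 * M) (three_dvd_mul M)) →+ ZMod 3) :=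
  AddMonoidHom.compHom' (lowConj h m).toAdditive

theorem tauOp_apply (m : ℤ) (φ : Additive (levelGroup (3 * M) (three_dvd_mul M)) →+ ZMod 3)
    (γ : levelGroup (3 * M) (three_dvd_mul M)) :
    tauOp h m φ (Additive.ofMul γ) = φ (Additive.ofMul (lowConj h m γ)) := rfl

theorem tauOp_add (m n : ℤ) (φ : Additive (levelGroup (3 * M) (three_dvd_mul M)) →+ ZMod 3) :
    tauOp h (m + n) φ = tauOp h n (tauOp h m φ) := by
  refine AddMonoidHom.ext fun γ => congrArg φ (congrArg Additive.ofMul (Subtype.ext ?_))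
  show ((lowM h (m + n) * _ * lowM h (-(m + n)) : levelGroup M h) : SL(2, ℤ)) =
    ((lowM h m * (lowM h n * _ * lowM h (-n)) * lowM h (-m) : levelGroup M h) : SL(2, ℤ))
  rw [lowM_add, neg_add_rev, lowM_add]
  simp [mul_assoc]

theorem tauOp_of_dvd {m : ℤ} (hm : (3 : ℤ) ∣ m)
    (φ : Additive (levelGroup (3 * M) (three_dvd_mul M)) →+ ZMod 3) : tauOp h m φ = φ := by
  have hmem : (lowM h m : SL(2, ℤ)) ∈ levelGroup (3 * M) (three_dvd_mul M) :=
    (kap_eq_zero_iff h _).1 (by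
      rw [kap_lowM]
      exact (ZMod.intCast_zmod_eq_zero_iff_dvd m 3).2 hm)
  refine AddMonoidHom.ext fun γ => ?_
  rw [← ofMul_toMul γ, tauOp_apply]
  have e : lowConj h m (Additive.toMul γ) = ⟨_, hmem⟩ * Additive.toMul γ * ⟨_, hmem⟩⁻¹ :=
    Subtype.ext (by simp [lowConj, lowM_neg])
  rw [e, ofMul_mul, ofMul_mul, ofMul_inv, map_add, map_add, map_neg]
  abel

theorem tauOp_congr {m n : ℤ} (hmn : (3 : ℤ) ∣ n - m)
    (φ : Additive (levelGroup (3 * M) (three_dvd_mul M)) →+ ZMod 3) :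
    tauOp h n φ = tauOp h m φ := by
  rw [show n = (n - m) + m by ring, tauOp_add, tauOp_of_dvd h hmn]

theorem tauOp_isParabolicHom (m : ℤ) {φ : Additive (levelGroup (3 * M) (three_dvd_mul M)) →+ ZMod 3}
    (hφ : IsParabolicHom _ φ) : IsParabolicHom _ (tauOp h m φ) := fun γ hγ => by
  rw [tauOp_apply]
  refine hφ _ ?_
  show ((lowM h m * ⟨γ, _⟩ * lowM h (-m) : levelGroup M h).1.1).trace ^ 2 = 4
  rw [lowM_neg, Subgroup.coe_mul, Subgroup.coe_mul, Matrix.SpecialLinearGroup.coe_mul,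
    Matrix.trace_mul_comm, ← Matrix.SpecialLinearGroup.coe_mul, ← mul_assoc, ← Subgroup.coe_mul,
    inv_mul_cancel, Subgroup.coe_one, one_mul]
  exact hγ

section twisted

variable {ℓ : ℕ} [hℓ : Fact ℓ.Prime] (hℓM : ¬ ℓ ∣ 3 * M)

include hℓM in
/-- **Twisted commutation of `T_ℓ` with the deck transformations.** -/
theorem tauOp_heckeHom (φ : Additive (levelGroup (3 * M) (three_dvd_mul M)) →+ ZMod 3) :
    tauOp h 1 (heckeHom (3 * M) (three_dvd_mul M) ℓ φ) =
      heckeHom (3 * M) (three_dvd_mul M) ℓ (tauOp h ℓ φ) := by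
  set D := bigSys h hℓM with hD
  set E := heckeSystem (3 * M) (oneModThree (3 * M) (three_dvd_mul M)) ℓ with hE
  refine AddMonoidHom.ext fun γ => ?_
  rw [← ofMul_toMul γ, tauOp_apply]
  set c := Additive.toMul γ
  simp only [heckeHom, CosetSystem.transfer_apply, tauOp_apply]
  set t := lowM h 1 with ht
  set δ := lowConj h 1 c with hδ
  set c' : levelGroup M h := ⟨c, levelGroup_le h c.2⟩
  set δ' : levelGroup M h := ⟨δ, levelGroup_le h δ.2⟩
  have hrel : δ' * t = t * c' := Subtype.ext (by simp [δ', δ, t, c', lowConj, lowM_neg])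
  have hg : ∀ x, ((D.cocycle t x * lowM h (-(ℓ : ℤ)) : levelGroup M h) : SL(2, ℤ)) ∈
      levelGroup (3 * M) (three_dvd_mul M) := fun x => by
    rw [← kap_eq_zero_iff, ofMul_mul, map_add, kap_cocycle, ht, kap_lowM, kap_lowM, Int.cast_one,
      mul_one, Int.cast_neg, Int.cast_natCast, add_neg_cancel]
  let g : HIdx (3 * M) ℓ → levelGroup (3 * M) (three_dvd_mul M) := fun x => ⟨_, hg x⟩
  have key : ∀ x, φ (Additive.ofMul (E.cocycle δ x)) = φ (Additive.ofMul (g x)) +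
      φ (Additive.ofMul (lowConj h ℓ (E.cocycle c (D.next t x)))) -
      φ (Additive.ofMul (g (E.next δ x))) := by
    intro x
    have e1 := D.cocycle_mul δ' t x
    rw [hrel, D.cocycle_mul t c' x, (bigSys_restrict h hℓM c (D.next t x)).2,
      (bigSys_restrict h hℓM δ x).1, (bigSys_restrict h hℓM δ x).2] at e1
    have e2 : E.cocycle δ x * g (E.next δ x) =
        g x * lowConj h ℓ (E.cocycle c (D.next t x)) := by
      refine Subtype.ext ?_
      have e3 := congrArg (fun z : levelGroup M h => ((z * lowM h (-(ℓ : ℤ))) : SL(2, ℤ))) e1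
      simp only [Subgroup.coe_mul, g, lowConj, MonoidHom.coe_mk, OneHom.coe_mk, lowM_neg,
        InvMemClass.coe_inv] at e3 ⊢
      simp only [mul_assoc, inv_mul_cancel_left] at e3 ⊢
      exact e3.symm
    have := congrArg (fun z => φ (Additive.ofMul z)) e2
    simp only [ofMul_mul, map_add] at this
    rw [eq_sub_iff_add_eq, this]
  refine (Finset.sum_congr rfl fun x _ => key x).trans ?_
  simp only [Finset.sum_sub_distrib, Finset.sum_add_distrib]
  have h1 : ∑ x, φ (Additive.ofMul (g (E.next δ x))) = ∑ x, φ (Additive.ofMul (g x)) :=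
    Equiv.sum_comp (E.nextPerm δ) fun y => φ (Additive.ofMul (g y))
  have h2 : ∑ x, φ (Additive.ofMul (lowConj h ℓ (E.cocycle c (D.next t x)))) =
      ∑ x, φ (Additive.ofMul (lowConj h ℓ (E.cocycle c x))) :=
    Equiv.sum_comp (D.nextPerm t) fun y => φ (Additive.ofMul (lowConj h ℓ (E.cocycle c y)))
  rw [h1, h2]
  abel

end twisted

/-- The difference operator `τ - 1`. -/
def diffOp (φ : Additive (levelGroup (3 * M) (three_dvd_mul M)) →+ ZMod 3) :
    Additive (levelGroup (3 * M) (three_dvd_mul M)) →+ ZMod 3 :=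
  tauOp h 1 φ - φ

theorem diffOp_cube (φ : Additive (levelGroup (3 * M) (three_dvd_mul M)) →+ ZMod 3) :
    diffOp h (diffOp h (diffOp h φ)) = 0 := by
  simp only [diffOp, map_sub, ← tauOp_add]
  rw [tauOp_of_dvd h (show (3 : ℤ) ∣ 1 + 1 + 1 by norm_num)]
  refine AddMonoidHom.ext fun γ => ?_
  simp only [AddMonoidHom.sub_apply, AddMonoidHom.zero_apply]
  generalize tauOp h (1 + 1) φ γ = u
  generalize tauOp h 1 φ γ = v
  generalize φ γ = w
  revert u v w
  decide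

theorem isParabolicHom_diffOp {φ : Additive (levelGroup (3 * M) (three_dvd_mul M)) →+ ZMod 3}
    (hφ : IsParabolicHom _ φ) : IsParabolicHom _ (diffOp h φ) := fun γ hγ => by
  rw [diffOp, AddMonoidHom.sub_apply, tauOp_isParabolicHom h 1 hφ γ hγ, hφ γ hγ, sub_zero]

theorem natCast_eq_one_or_two {ℓ : ℕ} (hℓ : ¬ 3 ∣ ℓ) : (ℓ : ZMod 3) = 1 ∨ (ℓ : ZMod 3) = 2 := by
  have hne : (ℓ : ZMod 3) ≠ 0 := fun e => hℓ ((ZMod.natCast_eq_zero_iff _ _).1 e)
  generalize (ℓ : ZMod 3) = u at hne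
  revert hne; revert u; decide

/-- A nonzero `τ`-invariant eigen homomorphism. -/
theorem exists_invariant {S : Set ℕ} (hS : ∀ q : ℕ, q.Prime → q ∣ 3 * M → q ∈ S) {a : ℕ → ZMod 3}
    {φ : Additive (levelGroup (3 * M) (three_dvd_mul M)) →+ ZMod 3} (h0 : φ ≠ 0)
    (hpar : IsParabolicHom _ φ) (heig : IsEigenHom (3 * M) (three_dvd_mul M) S a φ) :
    ∃ (i : ℕ) (y : Additive (levelGroup (3 * M) (three_dvd_mul M)) →+ ZMod 3), y ≠ 0 ∧
      IsParabolicHom _ y ∧ tauOp h 1 y = y ∧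
      IsEigenHom (3 * M) (three_dvd_mul M) S (fun ℓ => (ℓ : ZMod 3) ^ i * a ℓ) y := by
  set φ₁ := diffOp h φ with hφ₁
  set φ₂ := diffOp h φ₁ with hφ₂
  have hinv : ∀ y, diffOp h y = 0 → tauOp h 1 y = y := fun y hy => sub_eq_zero.1 hy
  have htwo : ∀ y, tauOp h 2 y = y + diffOp h y + diffOp h y + diffOp h (diffOp h y) := fun y => by
    simp only [diffOp, map_sub, ← tauOp_add]
    rw [show ((1 : ℤ) + 1) = 2 from rfl]
    abel
  -- the image of each operator
  have comm : ∀ (ℓ : ℕ) [Fact ℓ.Prime], ℓ ∉ S → ∀ y,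
      diffOp h (heckeHom (3 * M) (three_dvd_mul M) ℓ y) =
        heckeHom (3 * M) (three_dvd_mul M) ℓ (if (ℓ : ZMod 3) = 1 then diffOp h y
          else diffOp h y + diffOp h y + diffOp h (diffOp h y)) := by
    intro ℓ hℓ hℓS y
    have hℓM : ¬ ℓ ∣ 3 * M := fun hd => hℓS (hS ℓ hℓ.out hd)
    rw [diffOp, tauOp_heckeHom h hℓM, ← map_sub]
    refine congrArg _ ?_
    have hℓ3 : ¬ 3 ∣ ℓ := fun hd => hℓM (by
      rw [← (Nat.prime_dvd_prime_iff_eq Nat.prime_three hℓ.out).1 hd]; exact dvd_mul_right 3 M)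
    rcases natCast_eq_one_or_two hℓ3 with h1 | h2
    · rw [if_pos h1, tauOp_congr h (m := 1) (n := (ℓ : ℤ))]
      · rfl
      · exact (ZMod.intCast_zmod_eq_zero_iff_dvd _ 3).1 (by push_cast; rw [h1, sub_self])
    · rw [if_neg (by rw [h2]; decide), tauOp_congr h (m := 2) (n := (ℓ : ℤ)), htwo]
      · abel
      · exact (ZMod.intCast_zmod_eq_zero_iff_dvd _ 3).1 (by push_cast; rw [h2, sub_self])
  by_cases e1 : φ₁ = 0
  · exact ⟨0, φ, h0, hpar, hinv φ e1, fun ℓ _ hℓS => by simp [heig ℓ hℓS]⟩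
  have d1 : ∀ (ℓ : ℕ) [Fact ℓ.Prime], ℓ ∉ S → a ℓ • φ₁ = heckeHom (3 * M) (three_dvd_mul M) ℓ
      (if (ℓ : ZMod 3) = 1 then φ₁ else φ₁ + φ₁ + φ₂) := by
    intro ℓ _ hℓS
    rw [← comm ℓ hℓS φ, heig ℓ hℓS, hφ₁, diffOp, diffOp, smul_sub]
    refine congrArg (· - _) (AddMonoidHom.ext fun _ => rfl)
  by_cases e2 : φ₂ = 0
  · refine ⟨1, φ₁, e1, isParabolicHom_diffOp h hpar, hinv φ₁ e2, fun ℓ _ hℓS => ?_⟩
    have d := d1 ℓ hℓS
    have hne : (ℓ : ZMod 3) = 1 ∨ (ℓ : ZMod 3) = 2 := natCast_eq_one_or_two fun hd =>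
      hℓS (hS ℓ (Fact.out) ((Nat.prime_dvd_prime_iff_eq Nat.prime_three Fact.out).1 hd ▸
        dvd_mul_right 3 M))
    rcases hne with hl | hl
    · rw [if_pos hl] at d
      simp [hl, d]
    · rw [if_neg (by rw [hl]; decide), e2, add_zero, map_add] at d
      show _ = ((ℓ : ZMod 3) ^ 1 * a ℓ) • φ₁
      rw [pow_one, hl, mul_smul, d]
      refine AddMonoidHom.ext fun γ => ?_
      simp only [AddMonoidHom.smul_apply, AddMonoidHom.add_apply, smul_eq_mul]
      generalize heckeHom (3 * M) (three_dvd_mul M) ℓ φ₁ γ = u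
      revert u; decide
  refine ⟨0, φ₂, e2, isParabolicHom_diffOp h (isParabolicHom_diffOp h hpar),
    hinv φ₂ (diffOp_cube h φ), fun ℓ _ hℓS => ?_⟩
  have d := congrArg (diffOp h) (d1 ℓ hℓS)
  have hsm : ∀ (c : ZMod 3) y, diffOp h (c • y) = c • diffOp h y := fun c y => by
    rw [diffOp, diffOp, smul_sub]
    exact congrArg (· - _) (AddMonoidHom.ext fun _ => rfl)
  have hadd : ∀ y z, diffOp h (y + z) = diffOp h y + diffOp h z := fun y z => by
    simp only [diffOp, map_add]; abel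
  have h3 : diffOp h φ₂ = 0 := diffOp_cube h φ
  rw [hsm, ← hφ₂, comm ℓ hℓS] at d
  show _ = ((ℓ : ZMod 3) ^ 0 * a ℓ) • φ₂
  rw [pow_zero, one_mul, d]
  by_cases hl : (ℓ : ZMod 3) = 1
  · simp only [if_pos hl, ← hφ₂]
  · simp only [if_neg hl, hadd, ← hφ₂, h3, add_zero]
    refine congrArg _ (AddMonoidHom.ext fun γ => ?_)
    simp only [AddMonoidHom.add_apply]
    generalize φ₂ γ = u
    revert u; decide

/-- `kap` is an eigen homomorphism. -/
theorem heckeHom_kap {ℓ : ℕ} [Fact ℓ.Prime] (hℓM : ¬ ℓ ∣ 3 * M) :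
    heckeHom M h ℓ (kap h) = (((ℓ : ZMod 3) + 1) * ℓ) • kap h := by
  rw [heckeHom, ← bigSys_transfer h hℓM]
  refine AddMonoidHom.ext fun γ => ?_
  rw [← ofMul_toMul γ, CosetSystem.transfer_apply, AddMonoidHom.smul_apply, smul_eq_mul]
  simp only [kap_cocycle, Finset.sum_const, Finset.card_univ, card_bigIdx hℓM, nsmul_eq_mul]
  push_cast
  ring

omit [NeZero M] in
/-- Restriction to `levelGroup (3 M)` commutes with `T_ℓ`. -/
theorem heckeHom_res {ℓ : ℕ} [Fact ℓ.Prime] (hℓM : ¬ ℓ ∣ 3 * M)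
    (φ : Additive (levelGroup M h) →+ ZMod 3) (γ : levelGroup (3 * M) (three_dvd_mul M)) :
    heckeHom M h ℓ φ (Additive.ofMul ⟨γ, levelGroup_le h γ.2⟩) =
      heckeHom (3 * M) (three_dvd_mul M) ℓ
        (φ.comp (Subgroup.inclusion (levelGroup_le h)).toAdditive) (Additive.ofMul γ) := by
  rw [heckeHom, ← bigSys_transfer h hℓM, CosetSystem.transfer_apply, heckeHom,
    CosetSystem.transfer_apply]
  refine Finset.sum_congr rfl fun x _ => ?_
  rw [(bigSys_restrict h hℓM γ x).2]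
  rfl

/-- A homomorphism vanishing on `levelGroup (3 M)` is a multiple of `kap`. -/
theorem exists_eq_smul_kap (z : Additive (levelGroup M h) →+ ZMod 3)
    (hz : ∀ γ : levelGroup (3 * M) (three_dvd_mul M),
      z (Additive.ofMul ⟨γ, levelGroup_le h γ.2⟩) = 0) :
    ∃ c : ZMod 3, z = c • kap h := by
  refine ⟨z (Additive.ofMul (lowM h 1)), AddMonoidHom.ext fun γ => ?_⟩
  rw [← ofMul_toMul γ, AddMonoidHom.smul_apply, smul_eq_mul]
  set g := Additive.toMul γ
  set m := (kap h (Additive.ofMul g)).val with hm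
  have hpow : ∀ n : ℕ, z (Additive.ofMul (lowM h n)) = n * z (Additive.ofMul (lowM h 1)) := by
    intro n
    induction n with
    | zero => simp [lowM_zero]
    | succ n ih =>
      rw [Nat.cast_succ, lowM_add, ofMul_mul, map_add, ih, Nat.cast_succ, add_mul, one_mul]
  have hmem : ((g * lowM h (-(m : ℤ)) : levelGroup M h) : SL(2, ℤ)) ∈
      levelGroup (3 * M) (three_dvd_mul M) := by
    rw [← kap_eq_zero_iff, ofMul_mul, map_add, kap_lowM, Int.cast_neg, Int.cast_natCast, hm,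
      ZMod.natCast_zmod_val, add_neg_cancel]
  have h1 := hz ⟨_, hmem⟩
  simp only at h1
  rw [Subtype.coe_eta, ofMul_mul, map_add, lowM_neg, ofMul_inv, map_neg, hpow, hm,
    ZMod.natCast_zmod_val, ← sub_eq_add_neg, sub_eq_zero] at h1
  rw [h1, mul_comm]

/-- Extension of an invariant parabolic homomorphism. -/
theorem exists_extension {y : Additive (levelGroup (3 * M) (three_dvd_mul M)) →+ ZMod 3}
    (hpar : IsParabolicHom _ y) (hinv : tauOp h 1 y = y) :
    ∃ Y : Additive (levelGroup M h) →+ ZMod 3,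
      Y.comp (Subgroup.inclusion (levelGroup_le h)).toAdditive = y := by
  have hinv' : ∀ m : ℕ, tauOp h m y = y := by
    intro m
    induction m with
    | zero => exact tauOp_of_dvd h (dvd_zero 3) y
    | succ m ih => rw [Nat.cast_succ, tauOp_add, ih, hinv]
  let k : levelGroup M h → ℕ := fun g => (kap h (Additive.ofMul g)).val
  have hk : ∀ g, (k g : ZMod 3) = kap h (Additive.ofMul g) := fun g => ZMod.natCast_zmod_val _
  have hmem : ∀ g, ((g * lowM h (-(k g : ℤ)) : levelGroup M h) : SL(2, ℤ)) ∈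
      levelGroup (3 * M) (three_dvd_mul M) := fun g => by
    rw [← kap_eq_zero_iff, ofMul_mul, map_add, kap_lowM, Int.cast_neg, Int.cast_natCast, hk,
      add_neg_cancel]
  let p : levelGroup M h → levelGroup (3 * M) (three_dvd_mul M) := fun g => ⟨_, hmem g⟩
  refine ⟨AddMonoidHom.mk' (fun g => y (Additive.ofMul (p (Additive.toMul g)))) fun a b => ?_, ?_⟩
  · set γ := Additive.toMul a
    set δ := Additive.toMul b
    show y (Additive.ofMul (p (γ * δ))) = _
    have hdiv : (3 : ℤ) ∣ (k γ : ℤ) + k δ - k (γ * δ) :=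
      (ZMod.intCast_zmod_eq_zero_iff_dvd _ 3).1 (by
        push_cast; rw [hk, hk, hk, ofMul_mul, map_add, sub_self])
    have hs : ((lowM h ((k γ : ℤ) + k δ - k (γ * δ)) : levelGroup M h) : SL(2, ℤ)) ∈
        levelGroup (3 * M) (three_dvd_mul M) := by
      rw [← kap_eq_zero_iff, kap_lowM]
      exact (ZMod.intCast_zmod_eq_zero_iff_dvd _ 3).2 hdiv
    have e : p (γ * δ) = p γ * lowConj h (k γ) (p δ) * ⟨_, hs⟩ := Subtype.ext (by
      simp only [p, lowConj, Subgroup.coe_mul, MonoidHom.coe_mk, OneHom.coe_mk, sub_eq_add_neg,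
        lowM_add, lowM_neg, InvMemClass.coe_inv]
      simp [mul_assoc])
    have hzero : y (Additive.ofMul (⟨_, hs⟩ : levelGroup (3 * M) (three_dvd_mul M))) = 0 :=
      hpar _ (by simp [coe_lowM, Matrix.trace_fin_two])
    rw [e, ofMul_mul, ofMul_mul, map_add, map_add, hzero, add_zero, ← tauOp_apply, hinv']
  · refine AddMonoidHom.ext fun γ => congrArg y (congrArg Additive.ofMul (Subtype.ext ?_))
    have h0 : k (Subgroup.inclusion (levelGroup_le h) (Additive.toMul γ)) = 0 := by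
      show (kap h _).val = 0
      rw [(kap_eq_zero_iff h _).2 (Additive.toMul γ).2, ZMod.val_zero]
    simp [p, h0, lowM_zero]
    rfl

/-- **One step down.** -/
theorem exists_step {S : Set ℕ} (hS : ∀ q : ℕ, q.Prime → q ∣ 3 * M → q ∈ S) {a : ℕ → ZMod 3}
    {ℓ₀ : ℕ} [hℓ₀ : Fact ℓ₀.Prime] (hℓ₀S : ℓ₀ ∉ S) (hone : (ℓ₀ : ZMod M) = 1) (ha₀ : a ℓ₀ ≠ 2)
    {φ : Additive (levelGroup (3 * M) (three_dvd_mul M)) →+ ZMod 3} (h0 : φ ≠ 0)
    (hpar : IsParabolicHom _ φ) (heig : IsEigenHom (3 * M) (three_dvd_mul M) S a φ) :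
    ∃ (i : ℕ) (Y : Additive (levelGroup M h) →+ ZMod 3), Y ≠ 0 ∧ IsParabolicHom _ Y ∧
      IsEigenHom M h S (fun ℓ => (ℓ : ZMod 3) ^ i * a ℓ) Y := by
  obtain ⟨i, y, hy0, hypar, hyinv, hyeig⟩ := exists_invariant h hS h0 hpar heig
  obtain ⟨Z, hZ⟩ := exists_extension h hypar hyinv
  set b : ℕ → ZMod 3 := fun ℓ => (ℓ : ZMod 3) ^ i * a ℓ with hb
  have hone3 : (ℓ₀ : ZMod 3) = 1 := by
    have e := congrArg (ZMod.castHom h (ZMod 3)) hone
    rwa [map_natCast, map_one] at e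
  have hb₀ : b ℓ₀ = a ℓ₀ := by simp [hb, hone3]
  have hℓ₀M : ¬ ℓ₀ ∣ 3 * M := fun hd => hℓ₀S (hS _ hℓ₀.out hd)
  have hrel : ∀ (ℓ : ℕ) [Fact ℓ.Prime], ℓ ∉ S →
      ∃ c : ZMod 3, heckeHom M h ℓ Z = b ℓ • Z + c • kap h := by
    intro ℓ hℓ hℓS
    obtain ⟨c, hc⟩ := exists_eq_smul_kap h (heckeHom M h ℓ Z - b ℓ • Z) fun γ => by
      rw [AddMonoidHom.sub_apply, heckeHom_res h (fun hd => hℓS (hS ℓ hℓ.out hd)), hZ,
        hyeig ℓ hℓS, sub_eq_zero]
      show b ℓ • y (Additive.ofMul γ) = b ℓ • Z (Additive.ofMul ⟨γ, _⟩)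
      rw [← hZ]
      rfl
    exact ⟨c, eq_add_of_sub_eq' hc⟩
  have hsm : ∀ (ℓ : ℕ) [Fact ℓ.Prime] (c : ZMod 3) (ψ : Additive (levelGroup M h) →+ ZMod 3),
      heckeHom M h ℓ (c • ψ) = c • heckeHom M h ℓ ψ := fun ℓ _ c ψ => by
    refine AddMonoidHom.ext fun γ => ?_
    rw [← ofMul_toMul γ, heckeHom, CosetSystem.transfer_apply, AddMonoidHom.smul_apply,
      CosetSystem.transfer_apply, smul_eq_mul, Finset.mul_sum]
    rfl
  set Y := heckeHom M h ℓ₀ Z - (2 : ZMod 3) • Z with hY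
  have hkap₀ : heckeHom M h ℓ₀ (kap h) = (2 : ZMod 3) • kap h := by
    rw [heckeHom_kap h hℓ₀M, hone3]
    rfl
  have hYeig : IsEigenHom M h S b Y := by
    intro ℓ hℓ hℓS
    obtain ⟨c, hc⟩ := hrel ℓ hℓS
    have hcomm : heckeHom M h ℓ (heckeHom M h ℓ₀ Z) = heckeHom M h ℓ₀ (heckeHom M h ℓ Z) := by
      rcases eq_or_ne ℓ ℓ₀ with rfl | hne
      · rfl
      · exact transfer_comm hne Z
    rw [hY, map_sub, hsm, hcomm, hc, map_add, hsm, hsm, hkap₀]
    refine AddMonoidHom.ext fun γ => ?_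
    simp only [AddMonoidHom.sub_apply, AddMonoidHom.add_apply, AddMonoidHom.smul_apply,
      smul_eq_mul]
    ring
  refine ⟨i, Y, fun hY0 => ?_, ?_, hYeig⟩
  · refine hy0 (AddMonoidHom.ext fun γ => ?_)
    rw [← ofMul_toMul γ]
    have e := DFunLike.congr_fun hY0
      (Additive.ofMul (⟨_, levelGroup_le h (Additive.toMul γ).2⟩ : levelGroup M h))
    rw [hY, AddMonoidHom.sub_apply, heckeHom_res h hℓ₀M, hZ, hyeig ℓ₀ hℓ₀S,
      AddMonoidHom.smul_apply, AddMonoidHom.smul_apply, AddMonoidHom.zero_apply,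
      show b ℓ₀ = a ℓ₀ from hb₀] at e
    have e' : (a ℓ₀ - 2) * y (Additive.ofMul (Additive.toMul γ)) = 0 := by
      rw [sub_mul]
      refine Eq.trans ?_ e
      rw [← hZ]
      rfl
    exact (mul_eq_zero.1 e').resolve_left (sub_ne_zero.2 ha₀)
  · have hreg : ∀ u : ZMod 3, u ≠ 0 → IsSMulRegular (ZMod 3) u := fun u hu x x' e =>
      mul_left_cancel₀ hu e
    refine Fermat.Agent.HeckeCohom.isParabolicHom_of_eigen hone (R := ZMod 3) (hreg 2 (by decide))
      (b ℓ₀) (hreg _ ?_) Y 1 ?_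
    · rw [hb₀, hone3]
      exact sub_ne_zero.2 (by simpa [show (1 : ZMod 3) + 1 = 2 from rfl] using ha₀)
    · simpa [sub_eq_zero] using hYeig ℓ₀ hℓ₀S

end Fermat.Agent.LT.LevelThree
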