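import Fermat.Agent.GroupH1.Hecke
import Mathlib.Tactic

/-!
# Subgroups of level `M` and `3 M` with upper left entry `1` modulo `3`

For `3 ∣ M` let `levelGroup M` be the group of `γ ∈ Γ₀(M)` with upper left entry `≡ 1 (mod 3)`.
Then `levelGroup (3 M)` is the kernel of `kap : γ ↦ c / M (mod 3)`, and the representatives of
`T_ℓ` at level `3 M` multiply `kap` by `ℓ` along cocycles.
-/

set_option autoImplicit false

noncomputable section

open Matrix
open scoped MatrixGroups OnePoint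

namespace Fermat.Agent.LT.LevelThree

open Fermat.Agent.GroupH1
open Fermat.Agent.HeckeLattice (toGL CosetSystem)

/-- Units congruent to `1` modulo `3`. -/
def oneModThree (M : ℕ) (h : 3 ∣ M) : Subgroup (ZMod M)ˣ :=
  (Units.map (ZMod.castHom h (ZMod 3)).toMonoidHom).ker

/-- `Γ₀(M)` with upper left entry `≡ 1 (mod 3)`. -/
abbrev levelGroup (M : ℕ) (h : 3 ∣ M) : Subgroup SL(2, ℤ) := GammaH M (oneModThree M h)

variable {M : ℕ}

theorem mem_oneModThree {h : 3 ∣ M} {u : (ZMod M)ˣ} :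
    u ∈ oneModThree M h ↔ ZMod.castHom h (ZMod 3) (u : ZMod M) = 1 := by
  rw [oneModThree, MonoidHom.mem_ker, Units.ext_iff]
  rfl

/-- Membership in `levelGroup M`. -/
theorem mem_levelGroup {h : 3 ∣ M} {γ : SL(2, ℤ)} :
    γ ∈ levelGroup M h ↔ (M : ℤ) ∣ γ.1 1 0 ∧ (γ.1 0 0 : ZMod 3) = 1 := by
  rw [mem_GammaH, Adm, ZMod.intCast_zmod_eq_zero_iff_dvd]
  refine and_congr_right fun hc => ⟨?_, fun ha => ?_⟩
  · rintro ⟨u, hu, hu'⟩
    rw [mem_oneModThree, hu', map_intCast] at hu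
    exact hu
  · have hdet := congrArg (Int.cast : ℤ → ZMod M) γ.2
    rw [Matrix.det_fin_two] at hdet
    push_cast at hdet
    rw [(ZMod.intCast_zmod_eq_zero_iff_dvd _ _).2 hc, mul_zero, sub_zero] at hdet
    exact ⟨Units.mkOfMulEqOne _ _ hdet, mem_oneModThree.2 (by simpa using ha), rfl⟩

theorem dvd_lowerLeft {h : 3 ∣ M} (γ : levelGroup M h) : (M : ℤ) ∣ γ.1.1 1 0 :=
  (mem_levelGroup.1 γ.2).1

/-- The upper left entry is `1` modulo `3`. -/
theorem upperLeft_eq_one {h : 3 ∣ M} (γ : levelGroup M h) : (γ.1.1 0 0 : ZMod 3) = 1 :=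
  (mem_levelGroup.1 γ.2).2

theorem lowerRight_eq_one {h : 3 ∣ M} (γ : levelGroup M h) : (γ.1.1 1 1 : ZMod 3) = 1 := by
  have hdet := congrArg (Int.cast : ℤ → ZMod 3) γ.1.2
  rw [Matrix.det_fin_two] at hdet
  push_cast at hdet
  have hc : (γ.1.1 1 0 : ZMod 3) = 0 := (ZMod.intCast_zmod_eq_zero_iff_dvd _ _).2
    ((Int.natCast_dvd_natCast.2 h).trans (dvd_lowerLeft γ))
  rwa [upperLeft_eq_one γ, hc, one_mul, mul_zero, sub_zero] at hdet

/-- `3` divides `3 M`. -/
theorem three_dvd_mul (M : ℕ) : 3 ∣ 3 * M := dvd_mul_right 3 M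

variable (h : 3 ∣ M)

/-- `levelGroup (3 M)` lies in `levelGroup M`. -/
theorem levelGroup_le : levelGroup (3 * M) (three_dvd_mul M) ≤ levelGroup M h := fun γ hγ => by
  rw [mem_levelGroup] at hγ ⊢
  exact ⟨(Int.natCast_dvd_natCast.2 (dvd_mul_left M 3)).trans hγ.1, hγ.2⟩

variable [NeZero M]

/-- `γ ↦ c / M (mod 3)`. -/
def kap : Additive (levelGroup M h) →+ ZMod 3 :=
  AddMonoidHom.mk' (fun γ => (((Additive.toMul γ).1.1 1 0 / (M : ℤ) : ℤ) : ZMod 3)) fun a b => by
    set γ := Additive.toMul a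
    set δ := Additive.toMul b
    show (((γ * δ : levelGroup M h).1.1 1 0 / (M : ℤ) : ℤ) : ZMod 3) = _
    obtain ⟨x, hx⟩ := dvd_lowerLeft γ
    obtain ⟨y, hy⟩ := dvd_lowerLeft δ
    have hM : (M : ℤ) ≠ 0 := by exact_mod_cast NeZero.ne M
    have e : (γ * δ : levelGroup M h).1.1 1 0 = (M : ℤ) * (x * δ.1.1 0 0 + γ.1.1 1 1 * y) := by
      simp [Matrix.mul_apply, Fin.sum_univ_two, hx, hy]
      ring
    rw [e, hx, hy, Int.mul_ediv_cancel_left _ hM, Int.mul_ediv_cancel_left _ hM,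
      Int.mul_ediv_cancel_left _ hM, Int.cast_add, Int.cast_mul, Int.cast_mul, upperLeft_eq_one,
      lowerRight_eq_one, mul_one, one_mul]

theorem kap_ofMul (γ : levelGroup M h) :
    kap h (Additive.ofMul γ) = ((γ.1.1 1 0 / (M : ℤ) : ℤ) : ZMod 3) := rfl

/-- The kernel of `kap` is `levelGroup (3 M)`. -/
theorem kap_eq_zero_iff (γ : levelGroup M h) :
    kap h (Additive.ofMul γ) = 0 ↔ (γ : SL(2, ℤ)) ∈ levelGroup (3 * M) (three_dvd_mul M) := by
  obtain ⟨x, hx⟩ := dvd_lowerLeft γ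
  have hM : (M : ℤ) ≠ 0 := by exact_mod_cast NeZero.ne M
  rw [kap_ofMul, hx, Int.mul_ediv_cancel_left _ hM, ZMod.intCast_zmod_eq_zero_iff_dvd,
    mem_levelGroup, hx, and_iff_left (upperLeft_eq_one γ)]
  push_cast
  rw [mul_comm (3 : ℤ) (M : ℤ)]
  exact (mul_dvd_mul_iff_left hM).symm

/-- `[1, 0; m M, 1]`. -/
def lowM (m : ℤ) : levelGroup M h :=
  ⟨⟨!![1, 0; m * M, 1], by simp [Matrix.det_fin_two_of]⟩,
    mem_levelGroup.2 ⟨by simp, by simp⟩⟩

omit [NeZero M] in
/-- The lower unipotent matrices. -/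
theorem coe_lowM (m : ℤ) : (lowM h m).1.1 = !![1, 0; m * M, 1] := rfl

omit [NeZero M] in
/-- `lowM` is additive. -/
theorem lowM_add (m n : ℤ) : lowM h (m + n) = lowM h m * lowM h n := by
  refine Subtype.ext (Subtype.ext ?_)
  ext i j
  fin_cases i <;> fin_cases j <;>
    simp [coe_lowM, Matrix.mul_apply, Fin.sum_univ_two, add_mul]

omit [NeZero M] in
/-- `lowM 0` is the identity. -/
theorem lowM_zero : lowM h 0 = 1 := by
  refine Subtype.ext (Subtype.ext ?_)
  ext i j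
  fin_cases i <;> fin_cases j <;> simp [coe_lowM]

omit [NeZero M] in
/-- `lowM` takes negation to inversion. -/
theorem lowM_neg (m : ℤ) : lowM h (-m) = (lowM h m)⁻¹ :=
  eq_inv_of_mul_eq_one_left (by rw [← lowM_add, neg_add_cancel, lowM_zero])

/-- `kap` takes `lowM m` to `m`. -/
@[simp] theorem kap_lowM (m : ℤ) : kap h (Additive.ofMul (lowM h m)) = m := by
  have hM : (M : ℤ) ≠ 0 := by exact_mod_cast NeZero.ne M
  rw [kap_ofMul, coe_lowM]
  simp [Int.mul_ediv_cancel _ hM]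

/-! ### The representatives of level `3 M` on `levelGroup M` -/

variable (ℓ : ℕ) [hℓ : Fact ℓ.Prime]

omit [NeZero M] in
theorem adm_bigRep (x : HIdx (3 * M) ℓ) : Adm M (oneModThree M h) (repInt (3 * M) ℓ x.1) := by
  obtain ⟨h0, u, hu, hu'⟩ := adm_repInt (H := (⊥ : Subgroup (ZMod (3 * M))ˣ)) x
  rw [Subgroup.mem_bot] at hu
  rw [hu, Units.val_one] at hu'
  refine ⟨?_, 1, Subgroup.one_mem _, ?_⟩
  · simpa using congrArg (ZMod.castHom (dvd_mul_left M 3) (ZMod M)) h0
  · simpa using congrArg (ZMod.castHom (dvd_mul_left M 3) (ZMod M)) hu'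

variable {ℓ} (hℓM : ¬ ℓ ∣ 3 * M)

omit [NeZero M] in
include hℓM in
set_option linter.unusedSectionVars false in
-- `hℓM` is kept so that all the data attached to `x` takes the same arguments.
theorem exists_small (x : HIdx (3 * M) ℓ) : ∃ (y : HIdx M ℓ) (u : levelGroup M h),
    repInt (3 * M) ℓ x.1 = u.1.1 * repInt M ℓ y.1 := by
  obtain ⟨y, n, hn, hn'⟩ := exists_eq_mul_repInt (adm_bigRep h ℓ x) ⟨1, by rw [det_repInt, mul_one]⟩
  have h1 : n.det = 1 := by
    have := congrArg Matrix.det hn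
    rw [Matrix.det_mul, det_repInt, det_repInt] at this
    exact (mul_right_cancel₀ (Int.natCast_ne_zero.2 hℓ.out.ne_zero)
      (by rw [← this, one_mul]) : n.det = 1)
  exact ⟨y, ofAdm n h1 hn', hn⟩

/-- The small representative of a big one. -/
def smallIdx (x : HIdx (3 * M) ℓ) : HIdx M ℓ := (exists_small h hℓM x).choose

/-- The factor. -/
def smallFac (x : HIdx (3 * M) ℓ) : levelGroup M h := (exists_small h hℓM x).choose_spec.choose

omit [NeZero M] in
theorem bigRep_eq (x : HIdx (3 * M) ℓ) :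
    repInt (3 * M) ℓ x.1 = (smallFac h hℓM x).1.1 * repInt M ℓ (smallIdx h hℓM x).1 :=
  (exists_small h hℓM x).choose_spec.choose_spec

omit [NeZero M] in
theorem smallIdx_injective : Function.Injective (smallIdx h hℓM) := fun x x' e => by
  refine eq_of_mul_repInt_eq
    (u := ((smallFac h hℓM x') * (smallFac h hℓM x)⁻¹ : levelGroup M h).1.1)
    ((smallFac h hℓM x') * (smallFac h hℓM x)⁻¹ : levelGroup M h).1.2 ?_
  rw [bigRep_eq h hℓM x, bigRep_eq h hℓM x', e, ← mul_assoc]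
  refine congrArg (· * _) ?_
  show (smallFac h hℓM x' * (smallFac h hℓM x)⁻¹ * smallFac h hℓM x).1.1 = _
  rw [inv_mul_cancel_right]

omit [NeZero M] in
theorem smallIdx_bijective : Function.Bijective (smallIdx h hℓM) := by
  refine (Fintype.bijective_iff_injective_and_card _).2 ⟨smallIdx_injective h hℓM, ?_⟩
  have hM : ¬ ℓ ∣ M := fun hd => hℓM (dvd_mul_of_dvd_right hd 3)
  exact Fintype.card_congr ((Equiv.subtypeUnivEquiv fun _ _ => hℓM).trans
    (Equiv.subtypeUnivEquiv fun (_ : OnePoint (ZMod ℓ)) _ => hM).symm)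

/-- `T_ℓ` on `levelGroup M` with the representatives of level `3 M`. -/
def bigSys : CosetSystem (levelGroup M h) (HIdx (3 * M) ℓ) where
  β := repGL (3 * M) ℓ
  exists_mul γ x := by
    obtain ⟨⟨z, n⟩, hn⟩ := (heckeSystem M (oneModThree M h) ℓ).exists_mul γ (smallIdx h hℓM x)
    obtain ⟨y, rfl⟩ := (smallIdx_bijective h hℓM).2 z
    refine ⟨(y, smallFac h hℓM x * n * (smallFac h hℓM y)⁻¹), ?_⟩
    have e : ∀ x, repGL (3 * M) ℓ x = toGL (smallFac h hℓM x) * repGL M ℓ (smallIdx h hℓM x) :=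
      fun x => Units.ext (by
        rw [Units.val_mul, coe_repGL, coe_repGL, bigRep_eq h hℓM x, realMat_mul]
        exact congrArg (· * _) (coe_mapGL _).symm)
    rw [e x, e y, Fermat.Agent.HeckeLattice.toGL_mul, Fermat.Agent.HeckeLattice.toGL_mul,
      DoubleSystem.toGL_inv, mul_assoc, show repGL M ℓ (smallIdx h hℓM x) * toGL γ =
        toGL n * repGL M ℓ (smallIdx h hℓM y) from hn]
    simp [mul_assoc]
  inj u x y e := (heckeSystem (3 * M) (oneModThree (3 * M) (three_dvd_mul M)) ℓ).inj u x y e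

omit [NeZero M] in
/-- The big system computes the Hecke operator at level `M`. -/
theorem bigSys_transfer {B : Type*} [AddCommGroup B] (φ : Additive (levelGroup M h) →+ B) :
    (bigSys h hℓM).transfer φ = (heckeSystem M (oneModThree M h) ℓ).transfer φ := by
  rw [← transfer_toDouble, ← transfer_toDouble]
  refine DoubleSystem.transfer_congr _ _ (Equiv.ofBijective _ (smallIdx_bijective h hℓM))
    (smallFac h hℓM) (fun x => Units.ext ?_) φ
  simp only [toDouble, bigSys, heckeSystem, Units.val_mul, coe_repGL, Equiv.ofBijective_apply]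
  rw [bigRep_eq h hℓM x, realMat_mul]
  exact congrArg (· * _) (coe_mapGL _).symm

omit [NeZero M] in
/-- On `levelGroup (3 M)` the big system is the Hecke system of level `3 M`. -/
theorem bigSys_restrict (γ : levelGroup (3 * M) (three_dvd_mul M)) (x : HIdx (3 * M) ℓ) :
    (bigSys h hℓM).next ⟨γ, levelGroup_le h γ.2⟩ x =
        (heckeSystem (3 * M) (oneModThree (3 * M) (three_dvd_mul M)) ℓ).next γ x ∧
      (bigSys h hℓM).cocycle ⟨γ, levelGroup_le h γ.2⟩ x =
        ⟨(heckeSystem (3 * M) (oneModThree (3 * M) (three_dvd_mul M)) ℓ).cocycle γ x,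
          levelGroup_le h ((heckeSystem (3 * M) _ ℓ).cocycle γ x).2⟩ :=
  (bigSys h hℓM).eq_of_rep_mul
    ((heckeSystem (3 * M) (oneModThree (3 * M) (three_dvd_mul M)) ℓ).rep_mul γ x)

omit [NeZero M] in
theorem bigSys_mul_eq (γ : levelGroup M h) (x : HIdx (3 * M) ℓ) :
    repInt (3 * M) ℓ x.1 * γ.1.1 =
      ((bigSys h hℓM).cocycle γ x).1.1 * repInt (3 * M) ℓ ((bigSys h hℓM).next γ x).1 := by
  refine realMat_injective ?_
  have e := congrArg (fun g : GL (Fin 2) ℝ => (g : Matrix (Fin 2) (Fin 2) ℝ))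
    ((bigSys h hℓM).rep_mul γ x)
  simp only [Units.val_mul] at e
  rw [realMat_mul, realMat_mul, ← coe_mapGL, ← coe_mapGL, ← coe_repGL, ← coe_repGL]
  exact e

/-- The representatives multiply `kap` by `ℓ`. -/
theorem kap_cocycle (γ : levelGroup M h) (x : HIdx (3 * M) ℓ) :
    kap h (Additive.ofMul ((bigSys h hℓM).cocycle γ x)) =
      (ℓ : ZMod 3) * kap h (Additive.ofMul γ) := by
  have e := congrArg (fun m : Matrix (Fin 2) (Fin 2) ℤ => (m 1 0 : ZMod (3 * M)))
    (bigSys_mul_eq h hℓM γ x)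
  revert e
  generalize (bigSys h hℓM).cocycle γ x = n
  generalize (bigSys h hℓM).next γ x = y
  intro e
  have hy := adm_repInt (H := (⊥ : Subgroup (ZMod (3 * M))ˣ)) y
  obtain ⟨hy0, u, hu, hu'⟩ := hy
  rw [Subgroup.mem_bot] at hu
  rw [hu, Units.val_one] at hu'
  have hx0 := (adm_repInt (H := (⊥ : Subgroup (ZMod (3 * M))ˣ)) x).1
  have hd : repInt (3 * M) ℓ x.1 1 1 = ℓ := by
    rcases x with ⟨x, hx⟩
    cases x using OnePoint.rec <;> simp [repInt_infty, repInt_coe]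
  simp only [Matrix.mul_apply, Fin.sum_univ_two, Int.cast_add, Int.cast_mul, hx0, hy0, ← hu', hd,
    zero_mul, zero_add, mul_zero, add_zero, mul_one] at e
  rw [kap_ofMul, kap_ofMul]
  obtain ⟨c, hc⟩ := dvd_lowerLeft γ
  obtain ⟨c', hc'⟩ := dvd_lowerLeft n
  have hM : (M : ℤ) ≠ 0 := by exact_mod_cast NeZero.ne M
  rw [hc, hc', Int.mul_ediv_cancel_left _ hM, Int.mul_ediv_cancel_left _ hM]
  rw [hc, hc', ← Int.cast_mul, eq_comm,
    ZMod.intCast_eq_intCast_iff_dvd_sub] at e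
  have h3 : (3 : ℤ) ∣ (ℓ : ℤ) * c - c' := by
    refine (mul_dvd_mul_iff_left hM).1 ?_
    push_cast at e
    rw [show (M : ℤ) * 3 = 3 * M by ring, show (M : ℤ) * ((ℓ : ℤ) * c - c') =
      (ℓ : ℤ) * ((M : ℤ) * c) - (M : ℤ) * c' by ring]
    exact e
  have := (ZMod.intCast_zmod_eq_zero_iff_dvd ((ℓ : ℤ) * c - c') 3).2 (by exact_mod_cast h3)
  push_cast at this ⊢
  linear_combination -this

omit [NeZero M] in
include hℓM in
/-- There are `ℓ + 1` representatives at level `3 M`. -/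
theorem card_bigIdx : Fintype.card (HIdx (3 * M) ℓ) = ℓ + 1 := by
  rw [Fintype.card_congr (Equiv.subtypeUnivEquiv fun (_ : OnePoint (ZMod ℓ)) _ => hℓM)]
  exact (Fintype.card_option (α := ZMod ℓ)).trans (by rw [ZMod.card])

end Fermat.Agent.LT.LevelThree
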