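import Fermat.Agent.LT.LevelThree.Descend
import Fermat.Agent.HeckeCohom.Descend
import Fermat.Agent.EigenRep.Residual
import Fermat.Agent.HeckeEigen.Lift
import Fermat.Agent.CuspIntStr.Main

/-!
# Between eigenforms of `Γ₀(M)` and eigen homomorphisms of `levelGroup M`

`Γ₀(M) = levelGroup M × {±1}`; an eigen homomorphism with a prime `ℓ₁ ≡ 2 (mod 3)` with
`b_ℓ₁ ≠ 0` lifts to `ℤ_3`, hence comes from an eigenform.
-/

set_option autoImplicit false

noncomputable section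

open Matrix CongruenceSubgroup
open scoped MatrixGroups OnePoint

namespace Fermat.Agent.LT.LevelThree

open Fermat.Agent.GroupH1
open Fermat.Agent.HeckeLattice (toGL CosetSystem)
open Fermat.Agent.HeckeCohom (heckeOp topPull toTop heckeOp_topPull OpIdx wordAct wordEval)
open ModularCurve.Period (IsParabolicHom)
open WeierstrassCurve

variable {M : ℕ} [NeZero M] (h : 3 ∣ M)

/-- The sign making the upper left entry `1 (mod 3)`. -/
def signFix (γ : GammaH M (⊤ : Subgroup (ZMod M)ˣ)) : SL(2, ℤ) :=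
  if (γ.1.1 0 0 : ZMod 3) = 1 then γ.1 else -γ.1

omit [NeZero M] in
include h in
theorem upperLeft_top (γ : GammaH M (⊤ : Subgroup (ZMod M)ˣ)) :
    (γ.1.1 0 0 : ZMod 3) = 1 ∨ (γ.1.1 0 0 : ZMod 3) = -1 := by
  have hu := (mem_GammaH.1 γ.2).isUnit.map (ZMod.castHom h (ZMod 3))
  rw [map_intCast] at hu
  generalize (γ.1.1 0 0 : ZMod 3) = u at hu
  have hne : u ≠ 0 := hu.ne_zero
  revert hne; revert u; decide

omit [NeZero M] in
theorem signFix_mem (γ : GammaH M (⊤ : Subgroup (ZMod M)ˣ)) : signFix γ ∈ levelGroup M h := by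
  have hc : (M : ℤ) ∣ γ.1.1 1 0 := (ZMod.intCast_zmod_eq_zero_iff_dvd _ _).1 (mem_GammaH.1 γ.2).1
  rw [mem_levelGroup, signFix]
  split_ifs with h1
  · exact ⟨hc, h1⟩
  · have h2 := (upperLeft_top h γ).resolve_left h1
    refine ⟨?_, ?_⟩
    · simpa using hc
    · simp [h2]

omit [NeZero M] in
theorem signFix_mul (γ δ : GammaH M (⊤ : Subgroup (ZMod M)ˣ)) :
    signFix (γ * δ) = signFix γ * signFix δ ∨ ¬ 3 ∣ M := by
  refine or_iff_not_imp_right.2 fun h3 => ?_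
  rw [not_not] at h3
  have e : (((γ * δ : GammaH M (⊤ : Subgroup (ZMod M)ˣ))).1.1 0 0 : ZMod 3) =
      (γ.1.1 0 0 : ZMod 3) * (δ.1.1 0 0 : ZMod 3) := by
    have hc : (δ.1.1 1 0 : ZMod 3) = 0 := (ZMod.intCast_zmod_eq_zero_iff_dvd _ _).2
      ((Int.natCast_dvd_natCast.2 h3).trans
        ((ZMod.intCast_zmod_eq_zero_iff_dvd _ _).1 (mem_GammaH.1 δ.2).1))
    simp [Matrix.mul_apply, Fin.sum_univ_two, hc]
  rw [signFix, signFix, signFix, e]
  rcases upperLeft_top h3 γ with a | a <;> rcases upperLeft_top h3 δ with b | b <;>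
    simp [a, b, show (-1 : ZMod 3) ≠ 1 by decide]

/-- The projection `Γ₀(M) → levelGroup M`. -/
def levelProj : GammaH M (⊤ : Subgroup (ZMod M)ˣ) →* levelGroup M h where
  toFun γ := ⟨signFix γ, signFix_mem h γ⟩
  map_one' := Subtype.ext (by simp [signFix])
  map_mul' γ δ := Subtype.ext ((signFix_mul γ δ).resolve_right (not_not.2 h))

/-- Pull back along the projection. -/
def topOfLevel : (Additive (levelGroup M h) →+ ZMod 3) →+
    (Additive (GammaH M (⊤ : Subgroup (ZMod M)ˣ)) →+ ZMod 3) :=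
  AddMonoidHom.compHom' (levelProj h).toAdditive

omit [NeZero M] in
theorem levelProj_inclusion (γ : levelGroup M h) :
    levelProj h (Subgroup.inclusion (GammaH_mono le_top) γ) = γ :=
  Subtype.ext (if_pos (upperLeft_eq_one γ))

omit [NeZero M] in
theorem eq_topOfLevel (χ : Additive (GammaH M (⊤ : Subgroup (ZMod M)ˣ)) →+ ZMod 3) :
    topOfLevel h (χ.comp (Subgroup.inclusion (GammaH_mono le_top)).toAdditive) = χ := by
  refine AddMonoidHom.ext fun γ => ?_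
  rw [← ofMul_toMul γ]
  show χ (Additive.ofMul (Subgroup.inclusion _ (levelProj h (Additive.toMul γ)))) = _
  set g := Additive.toMul γ
  by_cases hg : (g.1.1 0 0 : ZMod 3) = 1
  · exact congrArg χ (congrArg Additive.ofMul (Subtype.ext (if_pos hg)))
  · have hneg : (-1 : SL(2, ℤ)) ∈ GammaH M (⊤ : Subgroup (ZMod M)ˣ) :=
      neg_one_mem_GammaH (Subgroup.mem_top _)
    have e : Subgroup.inclusion (GammaH_mono le_top) (levelProj h g) = ⟨-1, hneg⟩ * g :=
      Subtype.ext ((if_neg hg).trans (neg_one_mul _).symm)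
    rw [e, ofMul_mul, map_add, apply_neg_one (R := ZMod 3) (IsUnit.of_mul_eq_one 2 rfl) hneg χ,
      zero_add]

omit [NeZero M] in
theorem topOfLevel_injective : Function.Injective (topOfLevel (M := M) h) := fun y z e => by
  refine AddMonoidHom.ext fun γ => ?_
  have := DFunLike.congr_fun e
    (Additive.ofMul (Subgroup.inclusion (GammaH_mono le_top) (Additive.toMul γ)))
  simpa [topOfLevel, levelProj_inclusion] using this

omit [NeZero M] in
theorem transfer_topOfLevel {ℓ : ℕ} [Fact ℓ.Prime] (y : Additive (levelGroup M h) →+ ZMod 3) :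
    (heckeSystem M ⊤ ℓ).transfer (topOfLevel h y) = topOfLevel h (heckeHom M h ℓ y) := by
  refine AddMonoidHom.ext fun γ => ?_
  rw [← ofMul_toMul γ]
  set g := Additive.toMul γ
  show _ = heckeHom M h ℓ y (Additive.ofMul (levelProj h g))
  simp only [heckeHom, CosetSystem.transfer_apply]
  refine Finset.sum_congr rfl fun x _ => ?_
  refine congrArg (fun z => y (Additive.ofMul z)) ?_
  refine (((heckeSystem M (oneModThree M h) ℓ).eq_of_rep_mul
    (y := (heckeSystem M ⊤ ℓ).next g x) ?_).2).symm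
  have hrep := (heckeSystem M ⊤ ℓ).rep_mul g x
  set n := (heckeSystem M ⊤ ℓ).cocycle g x
  have hn : (n.1.1 0 0 : ZMod 3) = (g.1.1 0 0 : ZMod 3) := by
    have := congrArg (fun u : (⊤ : Subgroup (ZMod M)ˣ) => ((u : (ZMod M)ˣ) : ZMod M))
      (upperLeft_cocycle g x)
    simp only [coe_upperLeft] at this
    simpa using congrArg (ZMod.castHom h (ZMod 3)) this
  refine Units.ext ?_
  have e := congrArg (fun u : GL (Fin 2) ℝ => (u : Matrix (Fin 2) (Fin 2) ℝ)) hrep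
  simp only [Units.val_mul, Fermat.Agent.HeckeLattice.toGL, coe_mapGL] at e ⊢
  show _ * realMat (signFix g).1 = realMat (signFix n).1 * _
  rw [signFix, signFix, hn]
  split_ifs
  · exact e
  · rw [Matrix.SpecialLinearGroup.coe_neg, Matrix.SpecialLinearGroup.coe_neg,
      show ∀ m : Matrix (Fin 2) (Fin 2) ℤ, realMat (-m) = -realMat m from fun m => by
        ext i j; simp [realMat],
      show ∀ m : Matrix (Fin 2) (Fin 2) ℤ, realMat (-m) = -realMat m from fun m => by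
        ext i j; simp [realMat], Matrix.mul_neg, Matrix.neg_mul]
    exact congrArg Neg.neg e

omit [NeZero M] in
theorem isParabolicHom_comp_inclusion {H H' : Subgroup (ZMod M)ˣ} (hle : H ≤ H')
    {χ : Additive (GammaH M H') →+ ZMod 3} (hχ : IsParabolicHom _ χ) :
    IsParabolicHom _ (χ.comp (Subgroup.inclusion (GammaH_mono hle)).toAdditive) :=
  fun _ hγ => hχ _ hγ

/-- **An eigen homomorphism from a residually modular form.** -/
theorem exists_eigenHom {W : WeierstrassCurve ℤ} (hmod : W.IsResiduallyModularOfLevel 3 M)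
    (S : Set ℕ) (hS : ∀ q : ℕ, q.Prime → q ∣ M → q ∈ S)
    (hgood : ∀ q : ℕ, q.Prime → q ∉ S → W.IsGoodPrimeFor q ∧ q ≠ 3) :
    ∃ φ : Additive (levelGroup M h) →+ ZMod 3, φ ≠ 0 ∧ IsParabolicHom _ φ ∧
      IsEigenHom M h S (fun ℓ => (W.apOfModel ℓ : ZMod 3)) φ := by
  obtain ⟨f, 𝔪, hf, hmax, h3, hcong⟩ := hmod
  have : Fact (Nat.Prime 3) := ⟨Nat.prime_three⟩
  let ψ : CuspForm.heckeAlgebra M 2 S →+* integralClosure ℤ ℂ ⧸ 𝔪 :=
    (Ideal.Quotient.mk 𝔪).comp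
      (HeckeEigen.eigenCharInt (CuspIntStr.hasIntegralStructure M 2) hf S)
  have : Nontrivial (integralClosure ℤ ℂ ⧸ 𝔪) := Ideal.Quotient.nontrivial_iff.2 hmax.ne_top
  obtain ⟨χ, hχ0, -, hkill⟩ := EigenRep.exists_character_killed (p := 3) hS (RingHom.ker ψ)
    (RingHom.ker_ne_top ψ) (by
      rw [RingHom.mem_ker, map_natCast, ← map_natCast (Ideal.Quotient.mk 𝔪)]
      exact Ideal.Quotient.eq_zero_iff_mem.2 h3)
  set χT := χ.1.comp (toTop M).symm.toMonoidHom.toAdditive with hχT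
  have hpull : topPull M (ZMod 3) χT = χ.1 := by
    refine AddMonoidHom.ext fun γ => ?_
    show χ.1 (Additive.ofMul ((toTop M).symm (toTop M (Additive.toMul γ)))) = _
    rw [MulEquiv.symm_apply_apply]
    rfl
  have heigT : ∀ (ℓ : ℕ) [Fact ℓ.Prime], ℓ ∉ S →
      (heckeSystem M ⊤ ℓ).transfer χT = (W.apOfModel ℓ : ZMod 3) • χT := by
    intro ℓ hℓ hℓS
    have hℓM : ¬ ℓ ∣ M := fun hd => hℓS (hS ℓ hℓ.out hd)
    obtain ⟨c, hc, hcm⟩ := hcong ℓ hℓ.out (hgood ℓ hℓ.out hℓS).1 hℓM (hgood ℓ hℓ.out hℓS).2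
    have hev : HeckeLattice.evalFree hS (FreeAlgebra.ι ℤ ⟨⟨ℓ, hℓ.out⟩, hℓS⟩ -
        algebraMap ℤ _ (W.apOfModel ℓ)) ∈ RingHom.ker ψ := by
      rw [RingHom.mem_ker, map_sub, map_sub, AlgHom.commutes, HeckeLattice.evalFree,
        FreeAlgebra.lift_ι_apply, algebraMap_int_eq, eq_intCast, map_intCast, sub_eq_zero]
      show Ideal.Quotient.mk 𝔪 _ = _
      rw [← map_intCast (Ideal.Quotient.mk 𝔪)]
      refine (Ideal.Quotient.mk_eq_mk_iff_sub_mem _ _).2 ?_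
      have e : HeckeEigen.eigenCharInt (CuspIntStr.hasIntegralStructure M 2) hf S
          (CuspForm.heckeAlgebra.T hℓ.out hℓM hℓS) = c :=
        Subtype.ext (by rw [HeckeEigen.coe_eigenCharInt, HeckeEigen.eigenChar_T, hc])
      rw [e]
      exact hcm
    have h0 := hkill _ hev
    rw [map_sub, LinearMap.sub_apply, sub_eq_zero, AlgHom.commutes, HeckeLattice.transferAct,
      FreeAlgebra.lift_ι_apply] at h0
    have h1 : heckeOp M ℓ Fact.out (ZMod 3) χ.1 = (W.apOfModel ℓ : ZMod 3) • χ.1 := by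
      rw [HeckeCohom.heckeOp_of_not_dvd M hℓM]
      refine (show _ = _ from h0).trans ?_
      rw [Module.algebraMap_end_apply, Int.cast_smul_eq_zsmul]
    rw [← hpull, heckeOp_topPull] at h1
    refine AddMonoidHom.ext fun γ => ?_
    have := DFunLike.congr_fun h1 (Additive.ofMul ((toTop M).symm (Additive.toMul γ)))
    simpa [HeckeCohom.topPull_apply] using this
  set φ := χT.comp (Subgroup.inclusion (GammaH_mono (le_top : oneModThree M h ≤ ⊤))).toAdditive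
    with hφ
  have heq : topOfLevel h φ = χT := eq_topOfLevel h χT
  refine ⟨φ, fun h0 => hχ0 (Subtype.ext ?_), isParabolicHom_comp_inclusion le_top
    (fun γ hγ => χ.2 _ hγ), fun ℓ hℓ hℓS => topOfLevel_injective h ?_⟩
  · rw [← hpull, ← heq, h0, map_zero, map_zero]
    rfl
  · rw [← transfer_topOfLevel, heq, heigT ℓ hℓS]
    rw [← heq]
    exact AddMonoidHom.ext fun _ => rfl

/-- Iterating the step down to level `3 N`. -/
theorem exists_descend {N : ℕ} [NeZero N] {S : Set ℕ}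
    (hS : ∀ q : ℕ, q.Prime → q ∣ 3 * N → q ∈ S) {ℓ₀ : ℕ} [Fact ℓ₀.Prime] (hℓ₀S : ℓ₀ ∉ S) :
    ∀ (j M : ℕ) (h : 3 ∣ M) (a : ℕ → ZMod 3), M = 3 ^ j * (3 * N) → (ℓ₀ : ZMod M) = 1 →
      a ℓ₀ ≠ 2 → ∀ φ : Additive (levelGroup M h) →+ ZMod 3, φ ≠ 0 → IsParabolicHom _ φ →
      IsEigenHom M h S a φ →
      ∃ (i : ℕ) (ψ : Additive (levelGroup (3 * N) (three_dvd_mul N)) →+ ZMod 3), ψ ≠ 0 ∧
        IsParabolicHom _ ψ ∧
        IsEigenHom (3 * N) (three_dvd_mul N) S (fun ℓ => (ℓ : ZMod 3) ^ i * a ℓ) ψ := by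
  intro j
  induction j with
  | zero =>
    intro M h a hM _ _ φ h0 hp he
    rw [pow_zero, one_mul] at hM
    subst hM
    exact ⟨0, φ, h0, hp, fun ℓ _ hℓ => by simpa using he ℓ hℓ⟩
  | succ j ih =>
    intro M h a hM hone ha φ h0 hp he
    rw [pow_succ', mul_assoc] at hM
    subst hM
    set M' := 3 ^ j * (3 * N) with hM'
    have h' : 3 ∣ M' := dvd_mul_of_dvd_right (three_dvd_mul N) _
    have : NeZero M' := ⟨Nat.mul_ne_zero (pow_ne_zero _ three_ne_zero)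
      (Nat.mul_ne_zero three_ne_zero (NeZero.ne N))⟩
    have hone' : (ℓ₀ : ZMod M') = 1 := by
      have e := congrArg (ZMod.castHom (dvd_mul_left M' 3) (ZMod M')) hone
      rwa [map_natCast, map_one] at e
    have hS' : ∀ q : ℕ, q.Prime → q ∣ 3 * M' → q ∈ S := fun q hq hd => by
      refine hS q hq ((hq.dvd_mul.1 hd).elim (fun h => h.mul_right N) fun h => ?_)
      exact (hq.dvd_mul.1 h).elim (fun h => (hq.dvd_of_dvd_pow h).mul_right N) id
    obtain ⟨i, Y, hY0, hYp, hYe⟩ := exists_step h' hS' hℓ₀S hone' ha h0 hp he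
    have hone3 : (ℓ₀ : ZMod 3) = 1 := by
      have e := congrArg (ZMod.castHom h' (ZMod 3)) hone'
      rwa [map_natCast, map_one] at e
    obtain ⟨i', ψ, hψ0, hψp, hψe⟩ := ih M' h' _ rfl hone' (by simpa [hone3] using ha) Y hY0 hYp hYe
    refine ⟨i' + i, ψ, hψ0, hψp, fun ℓ _ hℓ => ?_⟩
    show _ = ((ℓ : ZMod 3) ^ (i' + i) * a ℓ) • ψ
    rw [pow_add, mul_assoc]
    exact hψe ℓ hℓ

omit [NeZero M] in
/-- A `3`-adic lift of `T_ℓ φ` for `ℓ ≡ 2 (mod 3)`. -/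
theorem exists_padic_lift {ℓ : ℕ} [Fact ℓ.Prime] (hℓM : ¬ ℓ ∣ M) (h2 : ℓ % 3 = 2)
    (φ : Additive (GammaH M (⊤ : Subgroup (ZMod M)ˣ)) →+ ZMod 3) :
    ∃ ψ : Additive (GammaH M (⊤ : Subgroup (ZMod M)ˣ)) →+ ℤ_[3],
      (PadicInt.toZMod (p := 3)).toAddMonoidHom.comp ψ = (heckeSystem M ⊤ ℓ).transfer φ := by
  let : Module ℤ_[3] (ZMod 3) := Module.compHom (ZMod 3) (PadicInt.toZMod (p := 3))
  let π : ℤ_[3] →ₗ[ℤ_[3]] ZMod 3 :=
    { toFun := PadicInt.toZMod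
      map_add' := map_add _
      map_smul' := fun a b => map_mul _ a b }
  have hu : IsUnit (2 : ℤ_[3]) := by
    rw [PadicInt.isUnit_iff, ← not_lt_iff_eq_or_lt.1 ?_ |>.resolve_right
      (fun hlt => absurd (PadicInt.norm_le_one (2 : ℤ_[3])) (not_le.2 hlt))]
    rw [show (2 : ℤ_[3]) = ((2 : ℤ) : ℤ_[3]) by norm_num, PadicInt.norm_int_lt_one_iff_dvd]
    norm_num
  choose c hc using exists_next_eq (H := (⊤ : Subgroup (ZMod M)ˣ)) (ℓ := ℓ) hℓM
  exact exists_lift_transfer (neg_one_mem_GammaH (Subgroup.mem_top _)) (heckeSystem M ⊤ ℓ)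
    ⟨∞, fun _ => hℓM⟩ c hc (Weights.ofStab hu hℓM h2 (Subgroup.mem_top _)) hu π
    (ZMod.ringHom_surjective PadicInt.toZMod) φ

/-- **An eigenform from an eigen homomorphism.** -/
theorem exists_eigenform_of_eigenHom {S : Set ℕ} (hS : ∀ q : ℕ, q.Prime → q ∣ M → q ∈ S)
    {b : ℕ → ZMod 3} {ℓ₀ ℓ₁ : ℕ} [hℓ₀ : Fact ℓ₀.Prime] [hℓ₁ : Fact ℓ₁.Prime]
    (hℓ₀S : ℓ₀ ∉ S) (hone : (ℓ₀ : ZMod M) = 1) (hb₀ : b ℓ₀ ≠ 2)
    (hℓ₁S : ℓ₁ ∉ S) (htwo : ℓ₁ % 3 = 2) (hb₁ : b ℓ₁ ≠ 0)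
    {φ : Additive (levelGroup M h) →+ ZMod 3} (h0 : φ ≠ 0) (hφ : IsEigenHom M h S b φ) :
    ∃ (g : CuspForm (Gamma0 M) 2) (Q : Ideal (integralClosure ℤ ℂ)),
      g.IsNormalizedEigenform ∧ Q.IsMaximal ∧ (3 : integralClosure ℤ ℂ) ∈ Q ∧
      ∀ ℓ : ℕ, ℓ.Prime → ℓ ∉ S → ∀ m : ℤ, (m : ZMod 3) = b ℓ →
        ∃ c : integralClosure ℤ ℂ, (c : ℂ) = ModularFormClass.qCoeff g ℓ ∧
          c - (m : integralClosure ℤ ℂ) ∈ Q := by
  set φT := topOfLevel h φ with hφT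
  have heT : ∀ (ℓ : ℕ) [Fact ℓ.Prime], ℓ ∉ S →
      (heckeSystem M ⊤ ℓ).transfer φT = b ℓ • φT := fun ℓ _ hℓ => by
    rw [hφT, transfer_topOfLevel, hφ ℓ hℓ]
    exact AddMonoidHom.ext fun _ => rfl
  set φ₀ := topPull M (ZMod 3) φT with hφ₀
  have hφ₀0 : φ₀ ≠ 0 := fun e => h0 (topOfLevel_injective h (by
    rw [map_zero]
    refine AddMonoidHom.ext fun γ => ?_
    have := DFunLike.congr_fun e (Additive.ofMul ((toTop M).symm (Additive.toMul γ)))
    simpa [hφ₀, HeckeCohom.topPull_apply] using this))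
  have he₀ : ∀ (ℓ : ℕ) (hℓ : ℓ.Prime), ℓ ∉ S → heckeOp M ℓ hℓ (ZMod 3) φ₀ = b ℓ • φ₀ :=
    fun ℓ hℓ hℓS => by
      have : Fact ℓ.Prime := ⟨hℓ⟩
      rw [hφ₀, heckeOp_topPull, heT ℓ hℓS]
      exact AddMonoidHom.ext fun _ => rfl
  have hℓ₁M : ¬ ℓ₁ ∣ M := fun hd => hℓ₁S (hS _ hℓ₁.out hd)
  obtain ⟨ψ, hψ⟩ := exists_padic_lift hℓ₁M htwo φT
  rw [heT ℓ₁ hℓ₁S] at hψ
  set Y := (heckeSystem M ⊤ ℓ₀).transfer ψ - ((1 + ℓ₀ : ℤ)) • ψ with hY
  have hYpar : IsParabolicHom _ Y := fun γ hγ => by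
    have e := HeckeCohom.two_nsmul_transfer_apply_parabolic hone ψ γ hγ
    rw [hY, AddMonoidHom.sub_apply, AddMonoidHom.smul_apply, sub_eq_zero]
    exact nsmul_right_injective two_ne_zero e
  set t := (PadicInt.toZMod (p := 3)).toAddMonoidHom with ht
  set c : ZMod 3 := (b ℓ₀ - 2) * b ℓ₁ with hc
  have hone3 : (ℓ₀ : ZMod 3) = 1 := by
    have e := congrArg (ZMod.castHom h (ZMod 3)) hone
    rwa [map_natCast, map_one] at e
  have hYred : t.comp Y = c • φT := by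
    refine AddMonoidHom.ext fun γ => ?_
    have e1 : t ((heckeSystem M ⊤ ℓ₀).transfer ψ γ) = b ℓ₁ * (b ℓ₀ * φT γ) := by
      rw [← AddMonoidHom.comp_apply, CosetSystem.comp_transfer, hψ, HeckeCohom.transfer_smul,
        heT ℓ₀ hℓ₀S]
      rfl
    have e2 : t (ψ γ) = b ℓ₁ * φT γ := DFunLike.congr_fun hψ γ
    rw [AddMonoidHom.comp_apply, hY, AddMonoidHom.sub_apply, AddMonoidHom.smul_apply, map_sub,
      map_zsmul, e1, e2, AddMonoidHom.smul_apply, smul_eq_mul, hc, zsmul_eq_mul]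
    push_cast
    rw [hone3]
    ring
  set Y₀ := topPull M ℤ_[3] Y with hY₀
  have hY₀par : IsParabolicHom (Gamma0 M) Y₀ := fun γ hγ => hYpar (toTop M γ) hγ
  have hY₀red : t.comp Y₀ = c • φ₀ := AddMonoidHom.ext fun γ =>
    DFunLike.congr_fun hYred (Additive.ofMul (toTop M (Additive.toMul γ)))
  let χ : FreeAlgebra ℤ (OpIdx S) →ₐ[ℤ] ZMod 3 := FreeAlgebra.lift ℤ fun ℓ => b (ℓ.1 : ℕ)
  have hlin : ∀ (P : FreeAlgebra ℤ (OpIdx S)) (u : ZMod 3) (z : Additive (Gamma0 M) →+ ZMod 3),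
      wordAct M S (ZMod 3) P (u • z) = u • wordAct M S (ZMod 3) P z := fun P u z =>
    (HeckeCohom.comp_wordAct (N := M) (AddMonoidHom.mulLeft u) P z).symm
  have hχ : ∀ P, wordAct M S (ZMod 3) P φ₀ = χ P • φ₀ := by
    intro P
    induction P using FreeAlgebra.induction with
    | grade0 r =>
      rw [AlgHom.commutes, AlgHom.commutes, Module.algebraMap_end_apply, algebraMap_int_eq,
        eq_intCast]
      exact (Int.cast_smul_eq_zsmul (ZMod 3) r φ₀).symm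
    | grade1 ℓ => simpa [wordAct, χ] using he₀ _ ℓ.1.2 ℓ.2
    | add p q hp hq => simp only [map_add, LinearMap.add_apply, hp, hq, add_smul]
    | mul p q hp hq =>
      rw [map_mul, map_mul, Module.End.mul_apply, hq, hlin, hp, smul_smul, mul_comm]
  have hc0 : c ≠ 0 := mul_ne_zero (sub_ne_zero.2 hb₀) hb₁
  have hker : ∀ P, wordEval M S P = 0 → χ P = 0 := by
    intro P hP
    have h1 := congrArg (fun z => t.comp z) (HeckeCohom.wordAct_eq_zero_of_wordEval_eq_zero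
      (HeckeCohom.eichlerShimuraSurjective M) hP Y₀ hY₀par)
    simp only [AddMonoidHom.comp_zero] at h1
    rw [HeckeCohom.comp_wordAct, hY₀red, hlin, hχ, smul_smul] at h1
    exact (mul_eq_zero.1 ((smul_eq_zero.1 h1).resolve_right hφ₀0)).resolve_left hc0
  let θ : CuspForm.heckeAlgebra M 2 S →+* ZMod 3 :=
    (RingHom.liftOfSurjective (wordEval M S).toRingHom HeckeCohom.wordEval_surjective
      ⟨χ.toRingHom, fun P hP => RingHom.mem_ker.2 (hker P (RingHom.mem_ker.1 hP))⟩)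
  obtain ⟨g, hg, Q, hQ, hint, hT, -⟩ := HeckeEigen.exists_eigenform_congruent
    (CuspIntStr.hasIntegralStructure M 2) θ (ZMod.ringHom_surjective θ)
  refine ⟨g, Q, hg, hQ, by exact_mod_cast hint 3 rfl, fun ℓ hℓ hℓS m hm => ?_⟩
  have hℓM : ¬ ℓ ∣ M := fun hd => hℓS (hS ℓ hℓ hd)
  refine hT ℓ hℓ hℓM hℓS m ?_
  rw [hm, show CuspForm.heckeAlgebra.T hℓ hℓM hℓS =
      (wordEval M S).toRingHom (FreeAlgebra.ι ℤ ⟨⟨ℓ, hℓ⟩, hℓS⟩) by simp [wordEval, hℓM],
    RingHom.liftOfRightInverse_comp_apply]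
  simp [χ]

end Fermat.Agent.LT.LevelThree
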