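import Fermat.Agent.LT.LevelThree.Assembly
import Fermat.Agent.OrdinaryExclusion.Residual
import Fermat.Agent.OrdinaryExclusion.QBasisExists
import Fermat.Agent.OrdinaryCurve.Main

/-!
# The exclusion of ordinary twists from the ordinary part of the Tate module

An eigenform of level `3 N` with unit coefficient at `3` gives, through `OrdinaryTate`, a point of
`J₀(3 N)[3]` on which inertia at `3` acts by the cyclotomic character. The twist by the determinant
of a supersingular `ρ₃` has an inertia element of order eight, without eigenvalue in `𝔽₃`.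
-/

set_option autoImplicit false

noncomputable section

open Matrix CongruenceSubgroup
open Fermat.Agent.TangentBound
open Fermat.Agent.FlatBound
open Fermat.Agent.GaloisBasics (Qbar GalQ)
open Fermat.Agent.LT.GaloisData

namespace Fermat.Agent.LT.LevelThree

local notation "F3" => ZMod 3

/-- The twist by its determinant of an element of order eight and determinant `-1` has no
eigenvalue. -/
theorem no_eigenvalue_aux : ∀ a b c d : F3, a * d - b * c ≠ 0 →
    a * d - b * c ≠ 1 → (!![a, b; c, d] : Matrix (Fin 2) (Fin 2) F3) ^ 4 = -1 →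
      ∀ x : F3, x ^ 2 - (a * d - b * c) * (a + d) * x + (a * d - b * c) ≠ 0 := by
  decide +kernel

theorem galoisFactors_detTwist (W : WeierstrassCurve ℤ) (hΔ : W.Δ ≠ 0) :
    GaloisFactorsThroughFiniteLevel (detTwist (rhoMat W hΔ)) := by
  obtain ⟨L, hL, h⟩ := rhoThree_factors W hΔ
  refine ⟨L, hL, fun σ hσ => ?_⟩
  rw [detTwist_apply, rhoMat_apply, h σ hσ, Units.val_one, Matrix.det_one, one_smul]

/-- **`OrdinaryTwistExclusion`** from the ordinary part of the Tate modules. -/
theorem ordinaryTwistExclusion [Fact (Nat.Prime 3)]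
    (hT : ∀ N : ℕ, 0 < N → ∀ [NeZero (3 * N)], OrdinaryCurve.OrdinaryTate 3 (3 * N)) :
    OrdinaryTwistExclusion := by
  intro W hΔ _ _ hs N hN _ g hg hg3 Q hQ h3Q S hSN hSgood hcong
  classical
  have : NeZero (3 * N) := ⟨by omega⟩
  obtain ⟨B⟩ := OrdinaryExclusion.nonempty_qBasis (3 * N)
  let : Field (integralClosure ℤ ℂ ⧸ Q) := Ideal.Quotient.field Q
  have h30 : ((3 : ℕ) : integralClosure ℤ ℂ ⧸ Q) = 0 := by
    rw [← map_natCast (Ideal.Quotient.mk Q), Ideal.Quotient.eq_zero_iff_mem]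
    exact_mod_cast h3Q
  have : CharP (integralClosure ℤ ℂ ⧸ Q) 3 :=
    (CharP.charP_iff_prime_eq_zero Nat.prime_three).2 h30
  obtain ⟨σ, hσ, hns, h4, -⟩ := inertia_three_eq (hΔ := hΔ) hs
    (PoitouTate.padicPlace_liesOverPrime 3)
  refine OrdinaryExclusion.false_of_elliptic_inertia (hT N hN) B (dvd_mul_right 3 N) hg
    (Ideal.Quotient.mk Q) (S := insert 3 S) (a := fun ℓ => (ℓ : ℤ) * W.apOfModel ℓ)
    (fun q hq hd => Finset.mem_insert_of_mem (hSN q hq hd)) ?_ ?_
    (detTwist (rhoMat W hΔ)) (galoisFactors_detTwist W hΔ) ?_ hσ ?_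
  · intro ℓ hℓ hℓS c hc
    obtain ⟨c', hc', hmem⟩ := hcong ℓ hℓ (fun h => hℓS (Finset.mem_insert_of_mem h))
      ((ℓ : ℤ) * W.apOfModel ℓ) (by push_cast; ring)
    obtain rfl : c = c' := Subtype.ext (hc.trans hc'.symm)
    rw [Ideal.Quotient.eq.2 hmem, map_intCast]
  · intro c hc h0
    have h1 : c ^ 2 = 1 := Subtype.ext (by
      show (c : ℂ) ^ 2 = 1
      rw [hc, hg3])
    have := congrArg (Ideal.Quotient.mk Q) h1
    rw [map_pow, h0, zero_pow two_ne_zero, map_one] at this
    exact zero_ne_one this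
  · intro ℓ hℓ hℓS A hA φ hφ
    obtain ⟨h3, hℓS⟩ : ℓ ≠ 3 ∧ ℓ ∉ S := by simpa [not_or] using hℓS
    have hd := det_rhoMat_frobenius W hΔ hℓ h3 hA hφ
    refine ⟨?_, by rw [det_detTwist, hd]⟩
    rw [detTwist_apply, Matrix.trace_smul, hd, rhoMat_apply,
      trace_rhoThree W hΔ hℓ (hSgood ℓ hℓ hℓS) h3 hA hφ, smul_eq_mul]
    push_cast
    ring
  · intro x
    rw [det_detTwist, detTwist_apply, Matrix.trace_smul, smul_eq_mul, rhoMat_apply]
    have hn1 : (rhoThree W hΔ σ : Matrix (Fin 2) (Fin 2) F3).det ≠ 1 := fun e =>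
      hns ((det_eq_one_iff _).2 e)
    have h4' : (rhoThree W hΔ σ : Matrix (Fin 2) (Fin 2) F3) ^ 4 = -1 := by
      rw [← Units.val_pow_eq_pow_val, h4, Units.val_neg, Units.val_one]
    revert hn1 h4'
    refine forall_gf3 (P := fun M => M.det ≠ 1 → M ^ 4 = -1 →
      x ^ 2 - M.det * M.trace * x + M.det ≠ 0) ?_ _
    intro a b c d hne hd h4
    rw [Matrix.det_fin_two_of] at hd ⊢
    rw [Matrix.trace_fin_two_of]
    exact no_eigenvalue_aux a b c d hne hd h4 x

end Fermat.Agent.LT.LevelThree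

end
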